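import Mathlib

/-!
# The coefficients `ℤ[1/2]`

They embed in `ℂ` with real values, reduce onto `ℤ/p` for every odd `p`, and clearing
powers of two gives integral polynomials.
-/

noncomputable section

namespace Fermat.LR

open scoped ComplexConjugate

/-- `ℤ[1/2]`. -/
abbrev HalfInt : Type := Localization.Away (2 : ℤ)

/-- `ℤ[1/2]` is a domain. -/
instance : IsDomain HalfInt :=
  IsLocalization.isDomain_localization (powers_le_nonZeroDivisors_of_noZeroDivisors
    (two_ne_zero (α := ℤ)))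

/-- Two is a unit in `ℤ[1/2]`. -/
theorem isUnit_two_halfInt : IsUnit (2 : HalfInt) := by
  have h := IsLocalization.Away.algebraMap_isUnit (S := HalfInt) (2 : ℤ)
  simpa using h

/-- `ℤ[1/2]` has characteristic zero. -/
instance : CharZero HalfInt :=
  charZero_of_injective_algebraMap (R := ℤ)
    (IsLocalization.injective HalfInt (powers_le_nonZeroDivisors_of_noZeroDivisors
      (two_ne_zero (α := ℤ))))

/-- The embedding in `ℂ`. -/
def halfToC : HalfInt →+* ℂ :=
  IsLocalization.Away.lift (2 : ℤ) (g := Int.castRingHom ℂ) (by simp)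

/-- The embedding of `ℤ[1/2]` in `ℂ` is injective. -/
theorem halfToC_injective : Function.Injective halfToC := by
  refine (injective_iff_map_eq_zero _).mpr fun x hx => ?_
  obtain ⟨⟨a, s⟩, h⟩ := IsLocalization.surj (Submonoid.powers (2 : ℤ)) x
  have h1 := congrArg halfToC h
  rw [map_mul, hx, zero_mul, halfToC, IsLocalization.Away.lift_eq] at h1
  have ha : a = 0 := by simpa using h1.symm
  rw [ha, map_zero] at h
  exact (IsLocalization.map_units HalfInt s).mul_left_eq_zero.mp h

/-- The embedding of `ℤ[1/2]` in `ℂ` commutes with complex conjugation. -/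
theorem conj_comp_halfToC : (starRingEnd ℂ).comp halfToC = halfToC :=
  IsLocalization.ringHom_ext (Submonoid.powers (2 : ℤ)) (RingHom.ext_int _ _)

/-- Reduction modulo an odd prime. -/
def halfToZMod (p : ℕ) (hp : p.Prime) (hp2 : p ≠ 2) : HalfInt →+* ZMod p :=
  IsLocalization.Away.lift (2 : ℤ) (g := Int.castRingHom (ZMod p)) (by
    have := Fact.mk hp
    refine isUnit_iff_ne_zero.mpr fun h => hp2 ?_
    have h' : ((2 : ℕ) : ZMod p) = 0 := by simpa using h
    exact (Nat.prime_dvd_prime_iff_eq hp Nat.prime_two).mp ((ZMod.natCast_eq_zero_iff 2 p).mp h'))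

variable {p : ℕ} (hp : p.Prime) (hp2 : p ≠ 2)

/-- Reduction `ℤ[1/2] → ℤ/p` is surjective. -/
theorem halfToZMod_surjective : Function.Surjective (halfToZMod p hp hp2) := fun x =>
  ⟨(x.val : HalfInt), by
    have := Fact.mk hp
    rw [map_natCast, ZMod.natCast_zmod_val]⟩

/-- The kernel of the reduction `ℤ[1/2] → ℤ/p` is generated by `p`. -/
theorem halfToZMod_eq_zero_iff (x : HalfInt) :
    halfToZMod p hp hp2 x = 0 ↔ (p : HalfInt) ∣ x := by
  refine ⟨fun hx => ?_,
    fun ⟨y, hy⟩ => by rw [hy, map_mul, map_natCast, ZMod.natCast_self, zero_mul]⟩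
  obtain ⟨⟨a, s⟩, h⟩ := IsLocalization.surj (Submonoid.powers (2 : ℤ)) x
  have h1 := congrArg (halfToZMod p hp hp2) h
  rw [map_mul, hx, zero_mul, halfToZMod, IsLocalization.Away.lift_eq] at h1
  obtain ⟨b, rfl⟩ := (ZMod.intCast_zmod_eq_zero_iff_dvd a p).mp h1.symm
  obtain ⟨w, hw⟩ := IsLocalization.map_units HalfInt s
  refine ⟨(b : HalfInt) * (w⁻¹ : HalfIntˣ), ?_⟩
  rw [← hw] at h
  rw [← mul_assoc, Units.eq_mul_inv_iff_mul_eq, h]
  simp

/-- Clearing the powers of two of a polynomial. -/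
theorem exists_int_poly {σ : Type} (s : MvPolynomial σ HalfInt) :
    ∃ (k : ℕ) (s₀ : MvPolynomial σ ℤ),
      (2 : MvPolynomial σ HalfInt) ^ k * s = MvPolynomial.map (Int.castRingHom HalfInt) s₀ := by
  induction s using MvPolynomial.induction_on with
  | C x =>
    obtain ⟨⟨a, ⟨_, k, rfl⟩⟩, h⟩ := IsLocalization.surj (Submonoid.powers (2 : ℤ)) x
    refine ⟨k, MvPolynomial.C a, ?_⟩
    rw [MvPolynomial.map_C,
      show (2 : MvPolynomial σ HalfInt) = MvPolynomial.C 2 from (map_ofNat _ 2).symm,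
      ← map_pow, ← map_mul]
    congr 1
    rw [mul_comm, eq_intCast]
    simpa using h
  | add P Q hP hQ =>
    obtain ⟨k, P₀, hP⟩ := hP
    obtain ⟨l, Q₀, hQ⟩ := hQ
    refine ⟨k + l, 2 ^ l * P₀ + 2 ^ k * Q₀, ?_⟩
    simp only [map_add, map_mul, map_pow, map_ofNat, ← hP, ← hQ]
    ring
  | mul_X P i hP =>
    obtain ⟨k, P₀, hP⟩ := hP
    exact ⟨k, P₀ * MvPolynomial.X i, by rw [map_mul, MvPolynomial.map_X, ← hP, mul_assoc]⟩

end Fermat.LR

end
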