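import Fermat.Agent.LR.Span
import Fermat.Agent.HM.Raise.Pair
import Mathlib.LinearAlgebra.Matrix.Charpoly.LinearMap

/-!
# The degeneracy maps at a non-Eisenstein system, any level

For `q` prime to `N` and coefficients `O` with two invertible and three nonzero, reduced to a field
`k`: outside a non-Eisenstein ideal the two degeneracy maps are injective modulo `ϖ` and the two
traces are jointly surjective.
-/

set_option linter.unusedSectionVars false

namespace Fermat.LR

open scoped MatrixGroups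
open Fermat.HM Fermat.MC.Lvl

section Level

variable {N q : ℕ} [NeZero N] [hq : Fact q.Prime] [NeZero (N * q)] {R : Type} [CommRing R]

/-- The diamond operators of `Γ₀(N)` are those of level `1`. -/
theorem levelOver_one : LevelOver 1 N (⊤ : Subgroup (ZMod N)ˣ) :=
  ⟨one_dvd N, fun _ _ => Subgroup.mem_top _⟩

/-- The level at `N q` above the full group of units is the full group of units. -/
theorem upH_top : upH (⊤ : Subgroup (ZMod N)ˣ) q = ⊤ := Subgroup.comap_top _

/-- At `Γ₀` the pullback along the cusp map at `∞` is the pullback along `τ ↦ q τ`. -/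
theorem pull_infty_top (hqN : ¬ q ∣ N) (φ : Homs R (GammaH N ⊤)) :
    (isLevelMap_infty hqN).pull φ
      = (isLevelMap_scaleUp (H := (⊤ : Subgroup (ZMod N)ˣ)) (q := q)).pull φ :=
  IsLevelMap.pull_congr _ _ (by rw [GammaH_top]; exact sigma0_mem hqN) (stdGL_infty hqN) φ

/-- At `Γ₀(N)` the diamond operator of `q` is the identity. -/
theorem diaQ_top (hqN : ¬ q ∣ N) (φ : Homs R (GammaH N ⊤)) : diaQ ⊤ hqN φ = φ :=
  pull_gamma0_of_mem (tauElt_mem_base hqN) (by rw [GammaH_top]; exact tauElt_mem_base hqN) φ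

/-- At `Γ₀(N q)` the diamond operator of `q` is the identity. -/
theorem diaQUp_top (hqN : ¬ q ∣ N) (φ : Homs R (GammaH (N * q) (upH ⊤ q))) :
    diaQUp ⊤ hqN φ = φ :=
  pull_gamma0_of_mem (tauElt_mem hqN) (by rw [upH_top, GammaH_top]; exact tauElt_mem hqN) φ

/-- At `Γ₀` the twisted trace after the Atkin-Lehner operator is the trace. -/
theorem psi_eq_tr_top (hqN : ¬ q ∣ N) (φ : Homs R (GammaH (N * q) (upH ⊤ q))) :
    psi ⊤ hqN (wq ⊤ hqN φ) = (isLevelMap_up (H := (⊤ : Subgroup (ZMod N)ˣ)) (q := q)).tr φ := by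
  rw [psi_wq_eq_tr]
  exact pull_gamma0_of_mem (sigma0_mem hqN) (by rw [GammaH_top]; exact sigma0_mem hqN) _

/-- At `Γ₀` the twisted trace of the pullback at `∞` is multiplication by `q + 1`. -/
theorem psi_infty_top [IsDomain R] [CharZero R] (hqN : ¬ q ∣ N) (x : Homs R (GammaH N ⊤)) :
    psi ⊤ hqN ((isLevelMap_infty hqN).pull x) = (q + 1) • x := by
  refine pull_one_injective (isLevelMap_up (q := q)) ?_
  rw [res_psi, heckeT_infty, ← wq_res, wq_wq, diaQUp_res, map_nsmul, diaQ_top, succ_nsmul]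

/-- At `Γ₀` the trace of the pullback along the inclusion is multiplication by `q + 1`. -/
theorem psi_wq_res_top [IsDomain R] [CharZero R] (hqN : ¬ q ∣ N) (x : Homs R (GammaH N ⊤)) :
    psi ⊤ hqN (wq ⊤ hqN ((isLevelMap_up (H := ⊤) (q := q)).pull x)) = (q + 1) • x := by
  rw [wq_res, psi_infty_top]

/-- At `Γ₀` the trace of the pullback at `∞` is `T q`. -/
theorem psi_wq_infty_top (hqN : ¬ q ∣ N) (x : Homs R (GammaH N ⊤)) :
    psi ⊤ hqN (wq ⊤ hqN ((isLevelMap_infty hqN).pull x)) = heckeT R N ⊤ q x := by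
  rw [← wq_res, wq_wq, diaQUp_res, psi_res, diaQ_top]

/-- On the kernel of the two traces `U q` squares to one. -/
theorem heckeT_heckeT_of_ker (hqN : ¬ q ∣ N) {v : Homs R (GammaH (N * q) (upH ⊤ q))}
    (h1 : psi ⊤ hqN v = 0) (h2 : psi ⊤ hqN (wq ⊤ hqN v) = 0) :
    heckeT R (N * q) (upH ⊤ q) q (heckeT R (N * q) (upH ⊤ q) q v) = v := by
  have h := heckeT_sq_sub hqN v
  rw [h1, h2, map_zero, sub_zero, map_zero, map_zero, sub_zero, diaQUp_top, sub_eq_zero] at h
  exact h

variable {O : Type} [CommRing O] [Algebra O R] {σ : Type} {pr : σ → ℕ}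
  [hpr : ∀ i, Fact (pr i).Prime]

/-- The Atkin-Lehner operator at `q` commutes with polynomials in the `T ℓ`, `ℓ ≠ q`. -/
theorem wq_heckeAct [IsDomain R] [CharZero R] (hqN : ¬ q ∣ N) (hne : ∀ i, pr i ≠ q)
    (a : MvPolynomial σ O) (φ : Homs R (GammaH (N * q) (upH ⊤ q))) :
    wq ⊤ hqN (heckeAct O R (N * q) (upH ⊤ q) pr a φ)
      = heckeAct O R (N * q) (upH ⊤ q) pr a (wq ⊤ hqN φ) :=
  intertwine_of_X ((wq ⊤ hqN (R := R)).restrictScalars O) (fun i x => by
    have := hpr i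
    rw [LinearMap.restrictScalars_apply, LinearMap.restrictScalars_apply, heckeAct_X, heckeAct_X,
      eq_sub_of_add_eq' (res_psi hqN (heckeT R (N * q) (upH ⊤ q) (pr i) x)).symm,
      eq_sub_of_add_eq' (res_psi hqN x).symm, map_sub, psi_heckeT hqN levelOver_one (hne i),
      heckeT_comm (ℓ := q) (ℓ' := pr i)]
    congr 1
    exact (IsLevelMap.pull_heckeT isLevelMap_up (hpr i).out.not_dvd_one
      ⟨fun h => ((hpr i).out.dvd_mul.mp h).resolve_right fun h' =>
        hne i ((Nat.prime_dvd_prime_iff_eq (hpr i).out hq.out).mp h'),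
          fun h => h.mul_right q⟩ _).symm)
    a φ

end Level

section Modulo

variable {O k : Type} [CommRing O] [Field k] [Algebra O k] {ϖ : O} {σ : Type} {pr : σ → ℕ}
  [hpr : ∀ i, Fact (pr i).Prime]

/-- Reduction of coefficients. -/
noncomputable abbrev toK (O k : Type) [CommRing O] [Field k] [Algebra O k]
    {Γ : Subgroup SL(2, ℤ)} : Homs O Γ →ₗ[O] Homs k Γ :=
  mapCoeffL (Algebra.ofId O k)

/-- A class reduces to zero exactly when it is a multiple of `ϖ`. -/
theorem toK_eq_zero_iff [IsDomain O] (hker : ∀ x, algebraMap O k x = 0 ↔ ϖ ∣ x) (hϖ : ϖ ≠ 0)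
    {Γ : Subgroup SL(2, ℤ)} {φ : Homs O Γ} :
    toK O k φ = 0 ↔ ∃ ψ : Homs O Γ, φ = ϖ • ψ :=
  mapCoeff_eq_zero_iff (f := (Algebra.ofId O k).toRingHom) hker
    (IsLeftCancelMulZero.mul_left_cancel_of_ne_zero hϖ)

/-- The reduction of the class `crossR a b` is `crossR a b` over `k`. -/
theorem toK_crossR {Γ : Subgroup SL(2, ℤ)} (a b : Cusp) :
    toK O k (crossR O Γ a b) = crossR k Γ a b :=
  mapCoeff_crossR _ a b

variable {N q : ℕ} [NeZero N] [hq : Fact q.Prime] [NeZero (N * q)]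
  {m : Ideal (MvPolynomial σ O)} [hm : m.IsPrime]

/-- **Ihara**: over a field, outside `m` the degeneracy maps are jointly injective. -/
theorem exists_kill_pair (hne : NonEisenstein pr m) (hqN : ¬ q ∣ N) (hpq : ∀ i, pr i ≠ q)
    {x₁ x₂ : Homs k (GammaH N ⊤)}
    (h : (isLevelMap_up (H := ⊤) (q := q)).pull x₁ + (isLevelMap_infty hqN).pull x₂ = 0) :
    ∃ s, s ∉ m ∧ heckeAct O k N ⊤ pr s x₁ = 0 ∧ heckeAct O k N ⊤ pr s x₂ = 0 := by
  obtain ⟨a, ha, S₁, hS₁⟩ := periodHom_coker (O := O) hne x₁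
  obtain ⟨b, hb, S₂, hS₂⟩ := periodHom_coker (O := O) hne x₂
  set T₁ := heckeActS O k N ⊤ pr b S₁
  set T₂ := heckeActS O k N ⊤ pr a S₂
  have hT₁ : periodHom T₁ = heckeAct O k N ⊤ pr (a * b) x₁ := by
    rw [periodHom_heckeActS, hS₁, mul_comm, map_mul, Module.End.mul_apply]
  have hT₂ : periodHom T₂ = heckeAct O k N ⊤ pr (a * b) x₂ := by
    rw [periodHom_heckeActS, hS₂, map_mul, Module.End.mul_apply]
  set h₁ := isLevelMap_up (H := (⊤ : Subgroup (ZMod N)ˣ)) (q := q)
  set h₂ := isLevelMap_scaleUp (H := (⊤ : Subgroup (ZMod N)ˣ)) (q := q)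
  have g₁ := goodFor_up (M := N) (H := (⊤ : Subgroup (ZMod N)ˣ)) hpq
  have g₂ := goodFor_scaleUp (M := N) (H := (⊤ : Subgroup (ZMod N)ˣ)) hpq
  have h0 : periodHom (h₁.pullS T₁ + h₂.pullS T₂) = 0 := by
    rw [map_add, h₁.periodHom_pullS, h₂.periodHom_pullS, hT₁, hT₂, pull_heckeAct h₁ g₁,
      pull_heckeAct h₂ g₂, ← map_add, ← pull_infty_top hqN, h, map_zero]
  obtain ⟨c, hc, hc0⟩ := periodHom_ker (O := O) hne h0
  rw [map_add, ← pullS_heckeActS h₁ g₁, ← pullS_heckeActS h₂ g₂] at hc0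
  obtain ⟨i, -, hs, hkill⟩ := exists_kill_of_rel (O := O) (R := k) (H := (⊤ : Subgroup (ZMod N)ˣ))
    (N' := N * q) (H' := upH (⊤ : Subgroup (ZMod N)ˣ) q) hne hq.out.one_lt
      (hq.out.coprime_iff_not_dvd.mpr hqN)
  obtain ⟨k₁, k₂⟩ := hkill h₁ h₂ _ _ hc0
  set s := eisElt O pr i * eisElt O pr i
  refine ⟨s * c * (a * b), fun hmem => ?_, ?_, ?_⟩
  · rcases hm.mem_or_mem hmem with hh | hh
    · exact (hm.mem_or_mem hh).elim hs hc
    · exact (hm.mem_or_mem hh).elim ha hb
  · rw [map_mul, map_mul, Module.End.mul_apply, Module.End.mul_apply, ← hT₁,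
      ← periodHom_heckeActS, ← periodHom_heckeActS, k₁, map_zero]
  · rw [map_mul, map_mul, Module.End.mul_apply, Module.End.mul_apply, ← hT₂,
      ← periodHom_heckeActS, ← periodHom_heckeActS, k₂, map_zero]

variable [IsDomain O] [CharZero O] (hsurj : Function.Surjective (algebraMap O k))
  (hker : ∀ x, algebraMap O k x = 0 ↔ ϖ ∣ x) (hϖ : ϖ ≠ 0)

include hker hϖ in
/-- **Ihara modulo `ϖ`**: if the sum of the pullbacks is divisible by `ϖ`, then so is some
`s ∉ m` applied to the first class. -/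
theorem exists_smul_eq_pair (hne : NonEisenstein pr m) (hqN : ¬ q ∣ N) (hpq : ∀ i, pr i ≠ q)
    {φ₁ φ₂ : Homs O (GammaH N ⊤)} {ψ : Homs O (GammaH (N * q) (upH ⊤ q))}
    (h : (isLevelMap_up (H := ⊤) (q := q)).pull φ₁ + (isLevelMap_infty hqN).pull φ₂ = ϖ • ψ) :
    ∃ s, s ∉ m ∧ ∃ χ : Homs O (GammaH N ⊤), heckeAct O O N ⊤ pr s φ₁ = ϖ • χ := by
  have h0 := congrArg (toK O k) h
  rw [map_add, (toK_eq_zero_iff hker hϖ).mpr ⟨ψ, rfl⟩] at h0
  simp only [mapCoeffL_apply, IsLevelMap.mapCoeff_pull] at h0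
  obtain ⟨s, hs, h1, -⟩ := exists_kill_pair (O := O) hne hqN hpq h0
  refine ⟨s, hs, (toK_eq_zero_iff hker hϖ).mp ?_⟩
  rw [mapCoeff_heckeAct, mapCoeffL_apply]
  exact h1

variable (h2 : IsUnit (2 : O)) (h3 : (3 : O) ≠ 0)

include hsurj hker hϖ h2 h3 in
/-- Outside `m` the two traces are jointly surjective modulo `ϖ`. -/
theorem exists_traces_eq_mod (hne : NonEisenstein pr m) (hqN : ¬ q ∣ N) :
    ∃ s, s ∉ m ∧ ∀ y₁ y₂ : Homs O (GammaH N ⊤), ∃ (z : Homs O (GammaH (N * q) (upH ⊤ q)))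
      (w₁ w₂ : Homs O (GammaH N ⊤)),
      heckeAct O O N ⊤ pr s y₁ = psi ⊤ hqN (wq ⊤ hqN z) + ϖ • w₁ ∧
      heckeAct O O N ⊤ pr s y₂ = psi ⊤ hqN z + ϖ • w₂ := by
  have : Finite (Cosets (GammaH N (⊤ : Subgroup (ZMod N)ˣ))) :=
    Subgroup.finite_quotient_of_finiteIndex
  have hneg : -1 ∈ GammaH N (⊤ : Subgroup (ZMod N)ˣ) := neg_one_mem_GammaH (Subgroup.mem_top _)
  -- an Eisenstein square kills every relation between the two pullbacks of symbols
  obtain ⟨i, hi, hs, hkill⟩ := exists_kill_of_rel (O := O) (R := k) (H := (⊤ : Subgroup (ZMod N)ˣ))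
    (N' := N * q) (H' := upH (⊤ : Subgroup (ZMod N)ˣ) q) hne hq.out.one_lt
      (hq.out.coprime_iff_not_dvd.mpr hqN)
  refine ⟨_, hs, fun y₁ y₂ => ?_⟩
  set h₁ := isLevelMap_up (H := (⊤ : Subgroup (ZMod N)ˣ)) (q := q)
  set h₂ := isLevelMap_scaleUp (H := (⊤ : Subgroup (ZMod N)ˣ)) (q := q)
  let β : Homs O (GammaH (N * q) (upH ⊤ q)) →ₗ[O]
      Homs k (GammaH N ⊤) × Homs k (GammaH N ⊤) :=
    (toK O k ∘ₗ h₁.tr).prod (toK O k ∘ₗ h₂.tr)
  set sN := eisElt O pr i * eisElt O pr i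
  set E := heckeT k N ⊤ (pr i) - (pr i + 1) • LinearMap.id with hE
  -- it is enough that the reductions lie in the image of the two traces modulo `ϖ`
  suffices hy : (toK O k (heckeAct O O N ⊤ pr sN y₁), toK O k (heckeAct O O N ⊤ pr sN y₂)) ∈
      LinearMap.range β by
    obtain ⟨z, hz⟩ := hy
    obtain ⟨w₁, hw₁⟩ := (toK_eq_zero_iff hker hϖ (φ := heckeAct O O N ⊤ pr sN y₁ - h₁.tr z)).mp
      (by rw [map_sub, sub_eq_zero]; exact (congrArg Prod.fst hz).symm)
    obtain ⟨w₂, hw₂⟩ := (toK_eq_zero_iff hker hϖ (φ := heckeAct O O N ⊤ pr sN y₂ - h₂.tr z)).mp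
      (by rw [map_sub, sub_eq_zero]; exact (congrArg Prod.snd hz).symm)
    exact ⟨z, w₁, w₂, by rw [psi_eq_tr_top, ← hw₁, add_sub_cancel],
      by rw [psi_eq_tr, ← hw₂, add_sub_cancel]⟩
  by_contra hy
  let Wk : Submodule k (Homs k (GammaH N ⊤) × Homs k (GammaH N ⊤)) :=
    Submodule.span k (Set.range β)
  have hWk : ∀ x ∈ Wk, x ∈ LinearMap.range β := fun x hx => by
    induction hx using Submodule.span_induction with
    | mem x hx => exact hx
    | zero => exact Submodule.zero_mem _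
    | add x y _ _ hx hy => exact add_mem hx hy
    | smul c x _ hx =>
      obtain ⟨c', rfl⟩ := hsurj c
      rw [algebraMap_smul]
      exact Submodule.smul_mem _ c' hx
  -- otherwise a functional kills that image but not the given pair
  obtain ⟨F, hF, hFr⟩ := Submodule.exists_dual_map_eq_bot_of_notMem
    (p := Wk) (fun h => hy (hWk _ h)) inferInstance
  have hzero : ∀ z, F (β z) = 0 := fun z => by
    have : F (β z) ∈ Wk.map F := ⟨_, Submodule.subset_span ⟨z, rfl⟩, rfl⟩
    rwa [hFr, Submodule.mem_bot] at this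
  set f₁ := F ∘ₗ LinearMap.inl k _ _ with hf₁
  set f₂ := F ∘ₗ LinearMap.inr k _ _ with hf₂
  have hsplit : ∀ a b, F (a, b) = f₁ a + f₂ b := fun a b => by
    simp [hf₁, hf₂, ← map_add]
  -- the functional gives a relation between the two pullbacks, killed by the Eisenstein square
  have hrel : h₁.pullS (dualToSymb k (GammaH N ⊤) f₁)
      + h₂.pullS (dualToSymb k (GammaH N ⊤) f₂) = 0 := by
    rw [← h₁.dualToSymb_tr, ← h₂.dualToSymb_tr, ← map_add]
    refine Subtype.ext (funext fun a => funext fun b => ?_)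
    rw [dualToSymb_apply]
    change f₁ (h₁.tr _) + f₂ (h₂.tr _) = 0
    rw [← hsplit, ← toK_crossR (O := O) a b, mapCoeffL_apply, ← h₁.mapCoeff_tr, ← h₂.mapCoeff_tr]
    exact hzero (crossR O _ a b)
  obtain ⟨k₁, k₂⟩ := hkill h₁ h₂ _ _ hrel
  have hfE : ∀ f : Module.Dual k (Homs k (GammaH N ⊤)),
      heckeActS O k N ⊤ pr sN (dualToSymb k (GammaH N ⊤) f) = 0 →
      ∀ y : Homs O (GammaH N ⊤), f (toK O k (heckeAct O O N ⊤ pr sN y)) = 0 := fun f hk y => by
    have h4 : dualToSymb k (GammaH N ⊤) ((f ∘ₗ E) ∘ₗ E) = 0 := by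
      rw [hE, dual_heckeAct_eisElt (O := O) _ i hi, dual_heckeAct_eisElt (O := O) _ i hi,
        ← Module.End.mul_apply, ← map_mul]
      exact hk
    have hact : ∀ x, heckeAct O k N ⊤ pr sN x = E (E x) := fun x => by
      rw [map_mul, Module.End.mul_apply, heckeAct_eisElt, heckeAct_eisElt]
      rfl
    rw [mapCoeff_heckeAct, hact]
    -- so it kills the image of the Eisenstein square, as crossing homomorphisms span
    induction mem_span_crossR hneg h2 h3 y using Submodule.span_induction with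
    | mem x hx =>
      obtain ⟨⟨a, b⟩, rfl⟩ := hx
      rw [toK_crossR]
      exact congrFun (congrFun (congrArg Subtype.val h4) a) b
    | zero => simp
    | add x x' _ _ hx hx' => rw [map_add, map_add, map_add, map_add, hx, hx', add_zero]
    | smul c x _ hx =>
      rw [map_smul, ← algebraMap_smul k c (toK O k x), map_smul, map_smul, map_smul, hx, smul_zero]
  refine hF ?_
  rw [hsplit, hfE f₁ k₁, hfE f₂ k₂, add_zero]

include hsurj hker hϖ h2 h3 in
/-- **Joint surjectivity of the traces outside `m`.** -/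
theorem exists_traces_eq {θ : σ → k}
    (hne : NonEisenstein pr (RingHom.ker (MvPolynomial.aeval (R := O) θ)))
    (hqN : ¬ q ∣ N) (hpq : ∀ i, pr i ≠ q) :
    ∃ s, MvPolynomial.aeval θ s ≠ 0 ∧ ∀ y₁ y₂ : Homs O (GammaH N ⊤),
      ∃ z : Homs O (GammaH (N * q) (upH ⊤ q)),
        heckeAct O O N ⊤ pr s y₁ = psi ⊤ hqN (wq ⊤ hqN z) ∧
        heckeAct O O N ⊤ pr s y₂ = psi ⊤ hqN z := by
  have : (RingHom.ker (MvPolynomial.aeval (R := O) θ)).IsPrime := RingHom.ker_isPrime _
  have : Finite (Cosets (GammaH N (⊤ : Subgroup (ZMod N)ˣ))) :=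
    Subgroup.finite_quotient_of_finiteIndex
  have hneg : -1 ∈ GammaH N (⊤ : Subgroup (ZMod N)ˣ) := neg_one_mem_GammaH (Subgroup.mem_top _)
  have := finite_homs hneg h2 h3
  obtain ⟨s, hs, hsur⟩ := exists_traces_eq_mod hsurj hker hϖ h2 h3 hne hqN
  let β : Homs O (GammaH (N * q) (upH ⊤ q)) →ₗ[O] Homs O (GammaH N ⊤) × Homs O (GammaH N ⊤) :=
    ((psi ⊤ hqN).comp (wq ⊤ hqN)).prod (psi ⊤ hqN)
  set P := prodAct (heckeAct O O N ⊤ pr) (heckeAct O O N ⊤ pr) with hP
  -- the image of the two traces is stable under the Hecke action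
  have hstab : ∀ a : MvPolynomial σ O, LinearMap.range β ≤ (LinearMap.range β).comap (P a) := by
    rintro a _ ⟨z, rfl⟩
    refine ⟨heckeAct O O (N * q) (upH ⊤ q) pr a z, ?_⟩
    rw [hP, prodAct_apply]
    exact Prod.ext (show psi ⊤ hqN (wq ⊤ hqN _) = _ by
        rw [wq_heckeAct hqN hpq, psi_heckeAct hqN levelOver_one hpq]; rfl)
      (psi_heckeAct hqN levelOver_one hpq a z)
  set A := (LinearMap.range β).mapQ (LinearMap.range β) (P s) (hstab s)
  -- on the quotient by the image `s` maps into multiples of `ϖ`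
  have hrange : LinearMap.range A ≤ Ideal.span {ϖ} • ⊤ := by
    rintro _ ⟨y, rfl⟩
    obtain ⟨⟨y₁, y₂⟩, rfl⟩ := Submodule.Quotient.mk_surjective _ y
    obtain ⟨z, w₁, w₂, e₁, e₂⟩ := hsur y₁ y₂
    have he : P s (y₁, y₂) = β z + ϖ • (w₁, w₂) := by
      rw [hP, prodAct_apply]
      exact Prod.ext e₁ e₂
    have hz : (Submodule.Quotient.mk (β z) :
        (Homs O (GammaH N (⊤ : Subgroup (ZMod N)ˣ)) × Homs O (GammaH N (⊤ : Subgroup (ZMod N)ˣ)))
          ⧸ LinearMap.range β) = 0 :=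
      (Submodule.Quotient.mk_eq_zero _).mpr (LinearMap.mem_range_self β z)
    rw [Submodule.mapQ_apply, he, Submodule.Quotient.mk_add, hz, zero_add,
      Submodule.Quotient.mk_smul]
    exact Submodule.smul_mem_smul (Ideal.mem_span_singleton_self ϖ) Submodule.mem_top
  -- so it is a root of a monic polynomial congruent to a power of `X`
  obtain ⟨p, hpmon, -, hpc, hp0⟩ :=
    LinearMap.exists_monic_and_natDegree_eq_and_coeff_mem_pow_and_aeval_eq_zero O A
      (Ideal.span {ϖ}) hrange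
  have hmap : p.map (algebraMap O k) = Polynomial.X ^ p.natDegree := by
    ext j
    rw [Polynomial.coeff_map, Polynomial.coeff_X_pow]
    rcases lt_trichotomy j p.natDegree with h | h | h
    · rw [if_neg h.ne]
      exact (hker _).mpr (Ideal.mem_span_singleton.mp
        (Ideal.pow_le_self (Nat.sub_ne_zero_of_lt h) (hpc j)))
    · rw [if_pos h, h, hpmon.coeff_natDegree, map_one]
    · rw [if_neg h.ne', Polynomial.coeff_eq_zero_of_natDegree_lt h, map_zero]
  refine ⟨Polynomial.aeval s p, ?_, fun y₁ y₂ => ?_⟩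
  · rw [← Polynomial.aeval_algHom_apply, Polynomial.aeval_def, ← Polynomial.eval_map, hmap,
      Polynomial.eval_pow, Polynomial.eval_X]
    exact pow_ne_zero _ fun h => hs (RingHom.mem_ker.mpr h)
  · have hA : ∀ (r : Polynomial O) (y : Homs O (GammaH N ⊤) × Homs O (GammaH N ⊤)),
        (Submodule.Quotient.mk (P (Polynomial.aeval s r) y) : _ ⧸ LinearMap.range β)
          = Polynomial.aeval A r (Submodule.Quotient.mk y) := by
      intro r
      induction r using Polynomial.induction_on' with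
      | add r₁ r₂ h₁ h₂ => intro y; simp [h₁, h₂]
      | monomial n c =>
        intro y
        rw [Polynomial.aeval_monomial, Polynomial.aeval_monomial, map_mul, AlgHom.commutes,
          Module.End.mul_apply, Module.End.mul_apply, Module.algebraMap_end_apply,
          Module.algebraMap_end_apply, Submodule.Quotient.mk_smul, map_pow]
        congr 1
        induction n with
        | zero => rfl
        | succ n ih =>
          rw [pow_succ', pow_succ', Module.End.mul_apply, Module.End.mul_apply, ← ih]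
          rfl
    have h := hA p (y₁, y₂)
    rw [hp0, LinearMap.zero_apply, Submodule.Quotient.mk_eq_zero] at h
    obtain ⟨z, hz⟩ := h
    rw [hP, prodAct_apply] at hz
    exact ⟨z, (congrArg Prod.fst hz).symm, (congrArg Prod.snd hz).symm⟩

end Modulo

end Fermat.LR
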