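import Fermat.Agent.LR.Degeneracy
import Fermat.Agent.HM.Raise.FormPoints
import Fermat.Agent.MC.Lvl.CuspGenus

/-!
# Systems of eigenvalues: from forms to homomorphisms modulo `ϖ` and back

A system which is that of a cusp form modulo `ϖ` has an eigen homomorphism modulo `ϖ`; a
homomorphism fixed by `U q ²` is killed outside `m` unless a form with `a q ² = 1` has the system.

`exists_mod_eigen` and `exists_kill_fixed`, the two passages used in `Main`.
-/

set_option linter.unusedSectionVars false

namespace Fermat.LR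

open scoped MatrixGroups ComplexConjugate
open Fermat.HM Fermat.MC.Lvl MvPolynomial

section Algebra

variable {k : Type} [Field k] {V : Type} [AddCommGroup V] [Module k V]

/-- A subspace stable under every `act (X i)` is stable under every `act P`. -/
theorem act_mem_of_stable {ι : Type} (act : MvPolynomial ι k →ₐ[k] Module.End k V)
    {U : Submodule k V} (hU : ∀ i, ∀ x ∈ U, act (X i) x ∈ U) (P : MvPolynomial ι k) :
    ∀ x ∈ U, act P x ∈ U := by
  induction P using MvPolynomial.induction_on with
  | C a =>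
    intro x hx
    rw [← MvPolynomial.algebraMap_eq, AlgHom.commutes, Module.algebraMap_end_apply]
    exact U.smul_mem a hx
  | add P Q hP hQ =>
    intro x hx
    rw [map_add, LinearMap.add_apply]
    exact add_mem (hP x hx) (hQ x hx)
  | mul_X P i hP =>
    intro x hx
    rw [map_mul, Module.End.mul_apply]
    exact hP _ (hU i x hx)

/-- A polynomial in the restriction of `act Q` is the restriction of the polynomial in `Q`. -/
theorem coe_aeval_restrict {ι : Type} (act : MvPolynomial ι k →ₐ[k] Module.End k V)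
    {U : Submodule k V} {Q : MvPolynomial ι k} (hQ : ∀ x ∈ U, act Q x ∈ U) (r : Polynomial k)
    (y : U) : ((Polynomial.aeval ((act Q).restrict hQ) r) y : V) =
      act (Polynomial.aeval Q r) y := by
  induction r using Polynomial.induction_on' generalizing y with
  | add r₁ r₂ h₁ h₂ => simp [h₁, h₂]
  | monomial j c =>
    rw [Polynomial.aeval_monomial, Polynomial.aeval_monomial, map_mul, AlgHom.commutes,
      Module.End.mul_apply, Module.End.mul_apply, Module.algebraMap_end_apply,
      Module.algebraMap_end_apply, map_pow, Submodule.coe_smul]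
    congr 1
    induction j with
    | zero => rfl
    | succ j ih =>
      rw [pow_succ', pow_succ', Module.End.mul_apply, Module.End.mul_apply, ← ih]
      rfl

/-- If no polynomial nonzero at the system `θ` kills a stable finite subspace, then it contains an
eigenvector with system `θ`. -/
theorem exists_eigen_of_no_kill {ι : Type} (act : MvPolynomial ι k →ₐ[k] Module.End k V) (θ : ι → k)
    (W : Submodule k V) [FiniteDimensional k W] (hW : ∀ i, ∀ x ∈ W, act (X i) x ∈ W)
    (h : ∀ P, eval θ P ≠ 0 → ∃ x ∈ W, act P x ≠ 0) :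
    ∃ x ∈ W, x ≠ 0 ∧ ∀ i, act (X i) x = θ i • x := by
  suffices H : ∀ n, ∀ U : Submodule k V, U ≤ W → Module.finrank k U = n →
      (∀ i, ∀ x ∈ U, act (X i) x ∈ U) → (∀ P, eval θ P ≠ 0 → ∃ x ∈ U, act P x ≠ 0) →
      ∃ x ∈ U, x ≠ 0 ∧ ∀ i, act (X i) x = θ i • x from H _ W le_rfl rfl hW h
  intro n
  induction n using Nat.strong_induction_on with
  | h n ih =>
    intro U hUW hn hU h
    have : FiniteDimensional k U := Submodule.finiteDimensional_of_le hUW
    have hUP := fun P => act_mem_of_stable act hU P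
    have hone : ∃ x ∈ U, x ≠ 0 := by
      obtain ⟨x, hx, hne⟩ := h 1 (by simp)
      exact ⟨x, hx, fun e => hne (by rw [e, map_zero])⟩
    -- induction on the dimension: nothing to do if every generator acts by its scalar
    by_cases hsc : ∀ i, ∀ x ∈ U, act (X i) x = θ i • x
    · obtain ⟨x, hx, hne⟩ := hone
      exact ⟨x, hx, hne, fun i => hsc i x hx⟩
    push Not at hsc
    obtain ⟨i, w, hw, hwne⟩ := hsc
    set Q : MvPolynomial ι k := X i - C (θ i) with hQ
    have hQact : ∀ x, act Q x = act (X i) x - θ i • x := fun x => by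
      rw [hQ, map_sub, LinearMap.sub_apply, ← MvPolynomial.algebraMap_eq, AlgHom.commutes,
        Module.algebraMap_end_apply]
    -- the kernel of `Q` is nonzero
    set g : U →ₗ[k] U := (act Q).restrict (hUP Q) with hg
    have hker : LinearMap.ker g ≠ ⊥ := by
      intro hbot
      have hdet : LinearMap.det g ≠ 0 := fun h0 =>
        (LinearMap.bot_lt_ker_of_det_eq_zero h0).ne hbot.symm
      rw [LinearMap.det_eq_sign_charpoly_coeff] at hdet
      set R := g.charpoly with hR
      obtain ⟨x, hx, hne⟩ := h (Polynomial.aeval Q R) (by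
        have e : eval θ (Polynomial.aeval Q R) = R.coeff 0 := by
          rw [show eval θ (Polynomial.aeval Q R) =
            MvPolynomial.aeval θ (Polynomial.aeval Q R) from rfl, ← Polynomial.aeval_algHom_apply]
          rw [show MvPolynomial.aeval θ Q = 0 by simp [hQ], Polynomial.coeff_zero_eq_eval_zero]
          rfl
        rw [e]
        exact fun e' => hdet (by rw [e', mul_zero]))
      refine hne ?_
      rw [← coe_aeval_restrict act (hUP Q) R ⟨x, hx⟩, ← hg, hR, LinearMap.aeval_self_charpoly]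
      rfl
    -- both the kernel and the image of `Q` in `U` are proper stable subspaces
    set U₁ : Submodule k V := U ⊓ LinearMap.ker (act Q) with hU₁
    set U₂ : Submodule k V := U.map (act Q) with hU₂
    have h1lt : U₁ < U := by
      refine lt_of_le_of_ne inf_le_left fun e => hwne ?_
      have : w ∈ U₁ := e.symm ▸ hw
      have h0 : act Q w = 0 := this.2
      rwa [hQact, sub_eq_zero] at h0
    have h1stab : ∀ j, ∀ x ∈ U₁, act (X j) x ∈ U₁ := fun j x hx => ⟨hU j x hx.1, by
      change act Q (act (X j) x) = 0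
      rw [← Module.End.mul_apply, ← map_mul, mul_comm, map_mul, Module.End.mul_apply,
        show act Q x = 0 from hx.2, map_zero]⟩
    have h2le : U₂ ≤ U := by
      rintro _ ⟨x, hx, rfl⟩
      exact hUP Q x hx
    have h2stab : ∀ j, ∀ x ∈ U₂, act (X j) x ∈ U₂ := by
      rintro j _ ⟨x, hx, rfl⟩
      refine ⟨act (X j) x, hU j x hx, ?_⟩
      rw [← Module.End.mul_apply, ← Module.End.mul_apply, ← map_mul, ← map_mul, mul_comm]
    have h2lt : U₂ < U := by
      refine lt_of_le_of_ne h2le fun e => hker ?_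
      refine LinearMap.ker_eq_bot.mpr (LinearMap.injective_iff_surjective.mpr fun y => ?_)
      obtain ⟨x, hx, hxy⟩ : (y : V) ∈ U₂ := e.symm ▸ y.2
      exact ⟨⟨x, hx⟩, Subtype.ext hxy⟩
    -- one of them is not killed outside the system
    by_cases hP1 : ∀ P, eval θ P ≠ 0 → ∃ x ∈ U₁, act P x ≠ 0
    · obtain ⟨x, hx, hne⟩ := ih _ (hn ▸ Submodule.finrank_lt_finrank_of_lt h1lt) U₁
        (h1lt.le.trans hUW) rfl h1stab hP1
      exact ⟨x, hx.1, hne⟩
    push Not at hP1
    obtain ⟨P₁, hP₁, hk₁⟩ := hP1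
    obtain ⟨x, hx, hne⟩ := ih _ (hn ▸ Submodule.finrank_lt_finrank_of_lt h2lt) U₂ (h2le.trans hUW)
      rfl h2stab fun P hP => by
        by_contra hno
        push Not at hno
        obtain ⟨x, hx, hne⟩ := h (P₁ * P) (by rw [map_mul]; exact mul_ne_zero hP₁ hP)
        refine hne ?_
        rw [map_mul, Module.End.mul_apply]
        refine hk₁ _ ⟨hUP P x hx, ?_⟩
        change act Q (act P x) = 0
        rw [← Module.End.mul_apply, ← map_mul, mul_comm, map_mul, Module.End.mul_apply]
        exact hno _ ⟨x, hx, rfl⟩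
    exact ⟨x, h2le hx, hne⟩

/-- If every common eigenvector of a stable subspace is killed by an element of `S`, so is the
subspace. -/
theorem exists_kill_of_eigen [IsAlgClosed k] [FiniteDimensional k V] {ι A : Type} [CommMonoid A]
    (S : Submonoid A) (act : A →* Module.End k V) (f : ι → Module.End k V)
    (hf : ∀ i j, f i * f j = f j * f i) (hcomm : ∀ a i, act a * f i = f i * act a)
    (W : Submodule k V) (hW : ∀ i, ∀ x ∈ W, f i x ∈ W) (hWa : ∀ a, ∀ x ∈ W, act a x ∈ W)
    (h : ∀ x ∈ W, x ≠ 0 → ∀ μ : ι → k, (∀ i, f i x = μ i • x) → ∃ a ∈ S, act a x = 0) :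
    ∃ a ∈ S, ∀ x ∈ W, act a x = 0 := by
  suffices H : ∀ n, ∀ U : Submodule k V, U ≤ W → Module.finrank k U = n →
      (∀ i, ∀ x ∈ U, f i x ∈ U) → (∀ a, ∀ x ∈ U, act a x ∈ U) →
      ∃ a ∈ S, ∀ x ∈ U, act a x = 0 from H _ W le_rfl rfl hW hWa
  intro n
  induction n using Nat.strong_induction_on with
  | h n ih =>
    intro U hUW hn hU hUa
    by_cases hbot : U = ⊥
    · exact ⟨1, one_mem _, fun x hx => by rw [hbot, Submodule.mem_bot] at hx; rw [hx, map_zero]⟩
    obtain ⟨x, hx, hx0, hev⟩ := exists_common_eigenvector f hf U hbot hU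
    choose μ hμ using hev
    obtain ⟨a, ha, hax⟩ := h x (hUW hx) hx0 μ hμ
    set g : U →ₗ[k] V := (act a).domRestrict U with hg
    have hlt : Module.finrank k (U.map (act a)) < n := by
      have h1 := g.finrank_range_add_finrank_ker
      have hk : 0 < Module.finrank k (LinearMap.ker g) := by
        rw [Module.finrank_pos_iff_exists_ne_zero]
        exact ⟨⟨⟨x, hx⟩, hax⟩, fun e => hx0 (congrArg (fun z : LinearMap.ker g => ((z : U) : V)) e)⟩
      have h2 : LinearMap.range g = U.map (act a) := LinearMap.range_domRestrict ..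
      rw [h2] at h1
      omega
    obtain ⟨b, hb, hb0⟩ := ih _ hlt (U.map (act a))
      ((Submodule.map_le_iff_le_comap.mpr fun y hy => hUa a y hy).trans hUW) rfl
      (fun i => by
        rintro _ ⟨y, hy, rfl⟩
        exact ⟨f i y, hU i y hy, by rw [← Module.End.mul_apply, hcomm, Module.End.mul_apply]⟩)
      (fun c => by
        rintro _ ⟨y, hy, rfl⟩
        exact ⟨act c y, hUa c y hy, by
          rw [← Module.End.mul_apply, ← map_mul, mul_comm, map_mul, Module.End.mul_apply]⟩)
    exact ⟨b * a, mul_mem hb ha, fun y hy => by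
      rw [map_mul, Module.End.mul_apply]
      exact hb0 _ ⟨y, hy, rfl⟩⟩

end Algebra

section Forms

variable {N : ℕ} [NeZero N] {O : Type} [CommRing O] {σ : Type} {pr : σ → ℕ}
  [hpr : ∀ i, Fact (pr i).Prime]

/-- A change of coefficients intertwines the actions of a polynomial and of its image. -/
theorem mapCoeff_heckeAct_map {R R' : Type} [CommRing R] [CommRing R'] (g : R →+* R')
    (P : MvPolynomial σ R) (φ : Homs R (GammaH N ⊤)) :
    mapCoeff g (heckeAct R R N ⊤ pr P φ)
      = heckeAct R' R' N ⊤ pr (MvPolynomial.map g P) (mapCoeff g φ) := by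
  induction P using MvPolynomial.induction_on generalizing φ with
  | C a =>
    rw [MvPolynomial.map_C, ← MvPolynomial.algebraMap_eq, ← MvPolynomial.algebraMap_eq,
      AlgHom.commutes, AlgHom.commutes, Module.algebraMap_end_apply, Module.algebraMap_end_apply,
      mapCoeff_smul]
  | add P Q hP hQ => simp only [map_add, LinearMap.add_apply, hP, hQ]
  | mul_X P i hP =>
    rw [map_mul, map_mul, map_mul, MvPolynomial.map_X, Module.End.mul_apply, Module.End.mul_apply,
      hP, heckeAct_X, heckeAct_X, mapCoeff_heckeT]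

/-- Polynomials in the family, on cusp forms. -/
noncomputable def formPoly (N : ℕ) [NeZero N] {σ : Type} (pr : σ → ℕ)
    [hpr : ∀ i, Fact (pr i).Prime] :
    MvPolynomial σ ℂ →ₐ[ℂ] Module.End ℂ (CuspForm (GammaH N (⊤ : Subgroup (ZMod N)ˣ)) 2) :=
  (commAeval (formOp N ⊤) formOp_comm).comp (rename fun i => Sum.inl ⟨pr i, (hpr i).out⟩)

/-- The variable `X i` acts on cusp forms as `T (pr i)`. -/
theorem formPoly_X (i : σ) : formPoly N pr (X i) = formHecke N ⊤ (pr i) := by
  rw [formPoly, AlgHom.comp_apply, rename_X, commAeval_X]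
  rfl

/-- A polynomial in the family commutes with every `T ℓ` and every diamond operator. -/
theorem formPoly_comm (P : MvPolynomial σ ℂ) (j : Nat.Primes ⊕ (ZMod N)ˣ) :
    formPoly N pr P * formOp N ⊤ j = formOp N ⊤ j * formPoly N pr P := by
  rw [formPoly, AlgHom.comp_apply, ← commAeval_X (O := ℂ) (formOp N ⊤) formOp_comm j, ← map_mul,
    mul_comm, map_mul]

/-- Polynomials act on an eigenform through their values at the eigenvalues. -/
theorem formPoly_apply_of_eigen {f : CuspForm (GammaH N ⊤) 2} {a : σ → ℂ}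
    (hev : ∀ i, formHecke N ⊤ (pr i) f = a i • f) (Q : MvPolynomial σ ℂ) :
    formPoly N pr Q f = eval a Q • f := by
  induction Q using MvPolynomial.induction_on with
  | C c => rw [← MvPolynomial.algebraMap_eq, AlgHom.commutes]; simp
  | add P Q hP hQ => rw [map_add, LinearMap.add_apply, hP, hQ, map_add, add_smul]
  | mul_X P j hP =>
    rw [map_mul, formPoly_X, Module.End.mul_apply, hev, map_smul, hP, map_mul, eval_X,
      smul_smul, mul_comm]

/-- The period map intertwines a polynomial in the family on forms and on homomorphisms. -/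
theorem formPeriod_formPoly (P : MvPolynomial σ ℂ) (f : CuspForm (GammaH N ⊤) 2) :
    formPeriod (formPoly N pr P f) = heckeAct ℂ ℂ N ⊤ pr P (formPeriod f) :=
  intertwine_of_X (formPeriod (N := N) (H := (⊤ : Subgroup (ZMod N)ˣ))) (fun i x => by
    rw [formPoly_X, heckeAct_X]
    exact formPeriod_formMap _ x) P f

variable [IsDomain O] [CharZero O] {m : Ideal (MvPolynomial σ O)} [hm : m.IsPrime] {u : O →+* ℂ}
  {q : ℕ} [hq : Fact q.Prime]

/-- **The part fixed by `U q ²` dies outside `m` without a congruent form.** -/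
theorem exists_kill_fixed (hne : NonEisenstein pr m) (hu : Function.Injective u)
    (hreal : (starRingEnd ℂ).comp u = u)
    (hform : ∀ h : CuspForm (GammaH N ⊤) 2, h ≠ 0 → ∀ c : Nat.Primes ⊕ (ZMod N)ˣ → ℂ,
      (∀ i, formOp N ⊤ i h = c i • h) → c (Sum.inl ⟨q, hq.out⟩) ^ 2 = 1 →
      ∃ a, a ∉ m ∧ eval₂ u (fun i => c (Sum.inl ⟨pr i, (hpr i).out⟩)) a = 0)
    (v : Homs O (GammaH N ⊤))
    (hv : heckeT O N ⊤ q (heckeT O N ⊤ q v) = v) :
    ∃ s, s ∉ m ∧ heckeAct O O N ⊤ pr s v = 0 := by
  -- after an Eisenstein element the class is the period of a symbol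
  obtain ⟨i, hi, hs⟩ := hne N (NeZero.ne N)
  obtain ⟨S, hS⟩ := eisen_coker hi v
  set v' := heckeAct O O N ⊤ pr (eisElt O pr i) v with hv'
  have hSv : periodHom S = v' := by rw [hv', heckeAct_eisElt, hS]
  -- its complexification is a period plus a conjugate period
  obtain ⟨f, g, e⟩ := exists_eq_formPeriod_add_conj (⟨fun a b => u (S.1 a b),
    fun a b c => by change u _ + u _ = u _; rw [← map_add, S.2.1 a b c],
    fun γ hγ a b => congrArg u (S.2.2 γ hγ a b)⟩ : symbols ℂ (GammaH N (⊤ : Subgroup (ZMod N)ˣ)))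
  have e' : mapCoeff u v' = formPeriod f + mapCoeff (starRingEnd ℂ) (formPeriod g) := by
    rw [← hSv, ← e]
    exact AddMonoidHom.ext fun _ => rfl
  have hv'2 : heckeT O N ⊤ q (heckeT O N ⊤ q v') = v' := by
    rw [hv', heckeAct_eisElt, map_sub, map_sub, map_nsmul, map_nsmul, hv,
      heckeT_comm (ℓ := q) (ℓ' := pr i), heckeT_comm (ℓ := q) (ℓ' := pr i), hv]
  set W : Submodule ℂ (CuspForm (GammaH N (⊤ : Subgroup (ZMod N)ˣ)) 2) :=
    LinearMap.ker (formHecke N ⊤ q * formHecke N ⊤ q - 1) with hWdef
  have hT : ∀ x : CuspForm (GammaH N ⊤) 2,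
      formPeriod (formHecke N ⊤ q x) = heckeT ℂ N ⊤ q (formPeriod x) := fun x =>
    formPeriod_formMap _ x
  -- both forms are fixed by `U q ²`
  have hfg : f ∈ W ∧ g ∈ W := by
    have e2 : mapCoeff u v' = formPeriod (formHecke N ⊤ q (formHecke N ⊤ q f))
        + mapCoeff (starRingEnd ℂ) (formPeriod (formHecke N ⊤ q (formHecke N ⊤ q g))) := by
      conv_lhs => rw [← hv'2]
      rw [mapCoeff_heckeT, mapCoeff_heckeT, e', map_add, map_add, hT, hT, hT, hT, mapCoeff_heckeT,
        mapCoeff_heckeT]
    have h0 := e'.symm.trans e2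
    have := eq_zero_of_formPeriod_add_conj (formHecke N ⊤ q (formHecke N ⊤ q f) - f)
      (formHecke N ⊤ q (formHecke N ⊤ q g) - g) (by
        rw [map_sub, map_sub, map_sub, sub_add_sub_comm, h0, sub_self])
    exact this
  have hqi : formHecke N ⊤ q = formOp N ⊤ (Sum.inl ⟨q, hq.out⟩) := rfl
  have hWmem : ∀ x, x ∈ W ↔ formHecke N ⊤ q (formHecke N ⊤ q x) = x := fun x => by
    simp [hWdef, sub_eq_zero]
  have hstab : ∀ (A : Module.End ℂ (CuspForm (GammaH N (⊤ : Subgroup (ZMod N)ˣ)) 2)),
      A * formHecke N ⊤ q = formHecke N ⊤ q * A → ∀ x ∈ W, A x ∈ W := fun A hA x hx => by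
    rw [hWmem] at hx ⊢
    rw [← Module.End.mul_apply (formHecke N ⊤ q) A, ← hA, Module.End.mul_apply,
      ← Module.End.mul_apply (formHecke N ⊤ q) A, ← hA, Module.End.mul_apply, hx]
  -- on that subspace every eigenvector is killed outside `m`, hence so is the subspace
  obtain ⟨s, hsm, hskill⟩ := exists_kill_of_eigen m.primeCompl
    ((formPoly N pr).toRingHom.comp (MvPolynomial.map u)).toMonoidHom (formOp N ⊤) formOp_comm
    (fun a j => formPoly_comm _ j) W
    (fun j => hstab _ (hqi ▸ formOp_comm j _))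
    (fun a => hstab _ (hqi ▸ formPoly_comm _ _))
    fun x hx hx0 μ hμ => by
      have hq2 : μ (Sum.inl ⟨q, hq.out⟩) ^ 2 = 1 := by
        rw [hWmem, hqi, hμ, map_smul, hμ, smul_smul] at hx
        have h1 : (μ (Sum.inl ⟨q, hq.out⟩) * μ (Sum.inl ⟨q, hq.out⟩) - 1) • x = 0 := by
          rw [sub_smul, one_smul, hx, sub_self]
        rw [sq]
        exact sub_eq_zero.mp ((smul_eq_zero.mp h1).resolve_right hx0)
      obtain ⟨a, ha, ha0⟩ := hform x hx0 μ hμ hq2
      refine ⟨a, ha, ?_⟩
      change formPoly N pr (MvPolynomial.map u a) x = 0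
      rw [formPoly_apply_of_eigen (a := fun i => μ (Sum.inl ⟨pr i, (hpr i).out⟩))
        (fun i => hμ (Sum.inl ⟨pr i, (hpr i).out⟩)), eval_map, ha0, zero_smul]
  refine ⟨s * eisElt O pr i, fun h => (hm.mem_or_mem h).elim hsm hs, ?_⟩
  rw [map_mul, Module.End.mul_apply, ← hv']
  have hk : ∀ x ∈ W, formPoly N pr (MvPolynomial.map u s) x = 0 := hskill
  -- so both periods are killed
  refine mapCoeff_injective hu ?_
  rw [mapCoeff_heckeAct_map, e', map_add, ← formPeriod_formPoly, hk f hfg.1, map_zero, zero_add,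
    map_zero]
  have hmap : MvPolynomial.map (starRingEnd ℂ) (MvPolynomial.map u s) = MvPolynomial.map u s := by
    rw [MvPolynomial.map_map, hreal]
  rw [← hmap, ← mapCoeff_heckeAct_map, ← formPeriod_formPoly, hk g hfg.2, map_zero, map_zero]

variable {k : Type} [Field k] [Algebra O k] {ϖ : O}

omit [IsDomain O] [CharZero O] in
/-- If `B` extends `A` along `u`, polynomials in `B` extend the polynomials in `A`. -/
theorem aeval_map_mapCoeff {A : Module.End O (Homs O (GammaH N (⊤ : Subgroup (ZMod N)ˣ)))}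
    {B : Module.End ℂ (Homs ℂ (GammaH N (⊤ : Subgroup (ZMod N)ˣ)))}
    (hBA : ∀ φ, B (mapCoeff u φ) = mapCoeff u (A φ)) (r : Polynomial O)
    (φ : Homs O (GammaH N (⊤ : Subgroup (ZMod N)ˣ))) :
    Polynomial.aeval B (r.map u) (mapCoeff u φ) = mapCoeff u (Polynomial.aeval A r φ) := by
  induction r using Polynomial.induction_on' with
  | add r₁ r₂ h₁ h₂ => simp [h₁, h₂]
  | monomial j c =>
    rw [Polynomial.map_monomial, Polynomial.aeval_monomial, Polynomial.aeval_monomial,
      Module.End.mul_apply, Module.End.mul_apply, Module.algebraMap_end_apply,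
      Module.algebraMap_end_apply, mapCoeff_smul]
    congr 1
    induction j with
    | zero => rfl
    | succ j ih =>
      rw [pow_succ', pow_succ', Module.End.mul_apply, Module.End.mul_apply, ih, hBA]

/-- **An eigen homomorphism modulo `ϖ`.** A cuspidal eigen system reducing to `θ` gives a
homomorphism nonzero modulo `ϖ` which is eigen with values `θ`. -/
theorem exists_mod_eigen (hsurj : Function.Surjective (algebraMap O k))
    (hker : ∀ x, algebraMap O k x = 0 ↔ ϖ ∣ x) (hϖ : ϖ ≠ 0) (h2 : IsUnit (2 : O))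
    (h3 : (3 : O) ≠ 0) (hu : Function.Injective u) {f : CuspForm (GammaH N ⊤) 2} (hf : f ≠ 0)
    {a : σ → ℂ} (hev : ∀ i, formHecke N ⊤ (pr i) f = a i • f) {θ : σ → k}
    (hθ : ∀ s : MvPolynomial σ O, aeval θ s ≠ 0 → ∀ (μ : ℂ) (P : Polynomial O), P.Monic →
      Polynomial.eval₂ u μ P = 0 → u ϖ * μ ≠ eval₂ u a s) :
    ∃ φ : Homs O (GammaH N ⊤), toK O k φ ≠ 0 ∧
      ∀ i, toK O k (heckeT O N ⊤ (pr i) φ) = θ i • toK O k φ := by
  have : Finite (Cosets (GammaH N (⊤ : Subgroup (ZMod N)ˣ))) :=
    Subgroup.finite_quotient_of_finiteIndex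
  have hneg : -1 ∈ GammaH N (⊤ : Subgroup (ZMod N)ˣ) := neg_one_mem_GammaH (Subgroup.mem_top _)
  have := finite_homs hneg h2 h3
  -- the span of the reductions, a finite dimensional stable space
  set W : Submodule k (Homs k (GammaH N (⊤ : Subgroup (ZMod N)ˣ))) :=
    Submodule.span k (Set.range (toK O k)) with hW
  have hWr : ∀ x ∈ W, ∃ φ, toK O k φ = x := fun x hx => by
    induction hx using Submodule.span_induction with
    | mem x hx => exact hx
    | zero => exact ⟨0, map_zero _⟩
    | add x y _ _ hx hy =>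
      obtain ⟨φ, rfl⟩ := hx
      obtain ⟨ψ, rfl⟩ := hy
      exact ⟨φ + ψ, map_add _ _ _⟩
    | smul c x _ hx =>
      obtain ⟨φ, rfl⟩ := hx
      obtain ⟨c', rfl⟩ := hsurj c
      exact ⟨c' • φ, by rw [map_smul, algebraMap_smul]⟩
  have : Module.Finite k W := by
    obtain ⟨T, hT, hTs⟩ := Submodule.fg_def.mp
      (Module.Finite.fg_top (R := O) (M := Homs O (GammaH N (⊤ : Subgroup (ZMod N)ˣ))))
    rw [Module.Finite.iff_fg]
    refine Submodule.fg_def.mpr ⟨toK O k '' T, hT.image _,
      le_antisymm (Submodule.span_mono (Set.image_subset_range _ _))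
        (Submodule.span_le.mpr ?_)⟩
    rintro _ ⟨φ, rfl⟩
    have hφ : φ ∈ Submodule.span O T := by rw [hTs]; exact Submodule.mem_top
    refine Submodule.span_le_restrictScalars O k (toK O k '' T) ?_
    rw [← Submodule.map_span]
    exact Submodule.mem_map_of_mem hφ
  have hred : ∀ (s : MvPolynomial σ O) φ, toK O k (heckeAct O O N ⊤ pr s φ)
      = heckeAct k k N ⊤ pr (MvPolynomial.map (algebraMap O k) s) (toK O k φ) := fun s φ =>
    mapCoeff_heckeAct_map (algebraMap O k) s φ
  obtain ⟨x, hx, hx0, hxe⟩ := exists_eigen_of_no_kill (heckeAct k k N ⊤ pr) θ W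
    (fun i x hx => by
      obtain ⟨φ, rfl⟩ := hWr x hx
      refine Submodule.subset_span ⟨heckeT O N ⊤ (pr i) φ, ?_⟩
      rw [mapCoeffL_apply, mapCoeffL_apply, mapCoeff_heckeT, heckeAct_X])
    fun P hP => by
      by_contra hno
      -- if some `s` outside the system killed it, `s` would act as `ϖ` times an integral operator
      push Not at hno
      obtain ⟨s, rfl⟩ := MvPolynomial.map_surjective (algebraMap O k) hsurj P
      have hsθ : aeval θ s ≠ 0 := by rwa [aeval_def, ← eval_map]
      have hdiv : ∀ φ, ∃ ψ, heckeAct O O N ⊤ pr s φ = ϖ • ψ := fun φ =>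
        (toK_eq_zero_iff hker hϖ).mp (by
          rw [hred]; exact hno _ (Submodule.subset_span ⟨φ, rfl⟩))
      choose A hA using hdiv
      have hinj : ∀ {x y : Homs O (GammaH N (⊤ : Subgroup (ZMod N)ˣ))}, ϖ • x = ϖ • y → x = y :=
        fun h => AddMonoidHom.ext fun γ => mul_left_cancel₀ hϖ (DFunLike.congr_fun h γ)
      let Al : Module.End O (Homs O (GammaH N (⊤ : Subgroup (ZMod N)ˣ))) :=
        { toFun := A
          map_add' := fun x y => hinj (by rw [smul_add, ← hA, ← hA, ← hA, map_add])
          map_smul' := fun c x => hinj (by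
            rw [← hA, map_smul, hA, RingHom.id_apply, smul_comm]) }
      obtain ⟨R, hR, hR0⟩ := LinearMap.exists_monic_and_aeval_eq_zero O Al
      -- then `a(s) / ϖ` would be integral over `O`, against the hypothesis
      set lam := eval₂ u a s
      have huϖ : u ϖ ≠ 0 := fun h => hϖ (hu (by rw [h, map_zero]))
      set B : Module.End ℂ (Homs ℂ (GammaH N (⊤ : Subgroup (ZMod N)ˣ))) :=
        (u ϖ)⁻¹ • heckeAct ℂ ℂ N ⊤ pr (MvPolynomial.map u s) with hB
      have hBA : ∀ φ, B (mapCoeff u φ) = mapCoeff u (A φ) := fun φ => by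
        rw [hB, LinearMap.smul_apply, ← mapCoeff_heckeAct_map, hA, mapCoeff_smul, smul_smul,
          inv_mul_cancel₀ huϖ, one_smul]
      have hall : ∀ Φ, Polynomial.aeval B (R.map u) Φ = 0 := fun Φ => by
        induction mem_span_crossR (R := ℂ) hneg (isUnit_iff_ne_zero.mpr two_ne_zero)
          (by norm_num) Φ using Submodule.span_induction with
        | mem y hy =>
          obtain ⟨⟨a, b⟩, rfl⟩ := hy
          change Polynomial.aeval B (R.map u) (crossR ℂ _ a b) = 0
          rw [← mapCoeff_crossR u, aeval_map_mapCoeff (A := Al) hBA, hR0, LinearMap.zero_apply,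
            map_zero]
        | zero => exact map_zero _
        | add y z _ _ hy hz => rw [map_add, hy, hz, add_zero]
        | smul c y _ hy => rw [map_smul, hy, smul_zero]
      have heig : B (formPeriod f) = ((u ϖ)⁻¹ * lam) • formPeriod f := by
        rw [hB, LinearMap.smul_apply, ← formPeriod_formPoly, formPoly_apply_of_eigen hev, map_smul,
          smul_smul, show lam = eval a (MvPolynomial.map u s) from (eval_map u a s).symm]
      refine hθ s hsθ ((u ϖ)⁻¹ * lam) R hR ?_ ?_
      · have h2' := Module.End.aeval_apply_of_mem_apply_eq_smul (p := R.map u) heig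
        rw [hall, Polynomial.eval_map] at h2'
        exact (smul_eq_zero.mp h2'.symm).resolve_right fun e =>
          hf (formPeriod_injective (e.trans (map_zero _).symm))
      · rw [← mul_assoc, mul_inv_cancel₀ huϖ, one_mul]
  obtain ⟨φ, rfl⟩ := hWr x hx
  refine ⟨φ, hx0, fun i => ?_⟩
  rw [mapCoeffL_apply, mapCoeff_heckeT]
  have := hxe i
  rwa [heckeAct_X] at this

end Forms

end Fermat.LR
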