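import Fermat.Agent.SW.TorsionRep
import Fermat.Agent.GR.RT.NonEis
import Fermat.Agent.GR.RT.Inertia
import Fermat.Prelude.Def_FLTPrelim_ModularRep

/-!
# An irreducible torsion representation is not Eisenstein

For an irreducible `E[p]`, `p` odd, and any `M` there are primes `ℓ ≡ 1 (mod M)` outside a given
finite set with `a ℓ ≢ ℓ + 1 (mod p)`: otherwise the image of the cyclotomic kernel would be a
normal unipotent subgroup, hence trivial, and complex conjugation would give a stable line.

`exists_prime_one_mod`; so `Main` may localise away from the Eisenstein ideals.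
-/

set_option autoImplicit false

noncomputable section

open WeierstrassCurve WeierstrassCurve.Affine Fermat.CFT Fermat.GR.RT Fermat.SW Matrix

namespace Fermat.LR

local notation "ℚbar" => AlgebraicClosure ℚ
local notation "Γℚ" => (AlgebraicClosure ℚ ≃ₐ[ℚ] AlgebraicClosure ℚ)

variable {p : ℕ} [hp : Fact p.Prime]

local notation "M2p" => Matrix (Fin 2) (Fin 2) (ZMod p)

/-- A nonzero matrix killing a nonzero vector kills only its multiples. -/
theorem exists_smul_of_mulVec_eq_zero {N : M2p} (hN : N ≠ 0) {v w : Fin 2 → ZMod p} (hv : v ≠ 0)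
    (h1 : N *ᵥ v = 0) (h2 : N *ᵥ w = 0) : ∃ c : ZMod p, w = c • v := by
  have a0 := congrFun h1 0
  have a1 := congrFun h1 1
  have b0 := congrFun h2 0
  have b1 := congrFun h2 1
  simp only [Matrix.mulVec, dotProduct, Fin.sum_univ_two, Pi.zero_apply] at a0 a1 b0 b1
  set D := v 0 * w 1 - v 1 * w 0 with hDdef
  have hD : D = 0 := by
    by_contra hD
    apply hN
    ext i j
    fin_cases i <;> fin_cases j <;> simp only [Matrix.zero_apply] <;>
      refine (mul_eq_zero.mp (?_ : _ * D = 0)).resolve_right hD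
    · change N 0 0 * D = 0
      linear_combination w 1 * a0 - v 1 * b0
    · change N 0 1 * D = 0
      linear_combination v 0 * b0 - w 0 * a0
    · change N 1 0 * D = 0
      linear_combination w 1 * a1 - v 1 * b1
    · change N 1 1 * D = 0
      linear_combination v 0 * b1 - w 0 * a1
  rw [hDdef] at hD
  by_cases h0 : v 0 = 0
  · have hv1 : v 1 ≠ 0 := fun e => hv (by ext i; fin_cases i <;> simp [h0, e])
    refine ⟨w 1 / v 1, ?_⟩
    have hw0 : w 0 = 0 := by
      rw [h0, zero_mul, zero_sub, neg_eq_zero, mul_eq_zero] at hD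
      exact hD.resolve_left hv1
    ext i; fin_cases i
    · simp [h0, hw0]
    · simp [hv1]
  · refine ⟨w 0 / v 0, ?_⟩
    ext i; fin_cases i
    · simp [h0]
    · simp
      field_simp
      linear_combination hD

/-- A square zero matrix has trace zero. -/
theorem trace_eq_zero_of_sq {N : M2p} (hN : N * N = 0) : N 0 0 + N 1 1 = 0 := by
  have e00 := congrFun (congrFun hN 0) 0
  have e01 := congrFun (congrFun hN 0) 1
  have e11 := congrFun (congrFun hN 1) 1
  simp [Matrix.mul_apply, Fin.sum_univ_two] at e00 e01 e11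
  by_contra ht
  have hb : N 0 1 = 0 := (mul_eq_zero.mp
    (by linear_combination e01 : N 0 1 * (N 0 0 + N 1 1) = 0)).resolve_right ht
  have ha : N 0 0 = 0 := mul_self_eq_zero.mp (by rw [hb] at e00; linear_combination e00)
  have hd : N 1 1 = 0 := mul_self_eq_zero.mp (by rw [hb] at e11; linear_combination e11)
  exact ht (by rw [ha, hd, add_zero])

/-- For a square zero `N` one has `N X N = tr (N X) N`. -/
theorem mul_mul_of_sq {N : M2p} (hN : N * N = 0) (X : M2p) :
    N * X * N = (N * X).trace • N := by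
  have ht := trace_eq_zero_of_sq hN
  have e00 := congrFun (congrFun hN 0) 0
  simp [Matrix.mul_apply, Fin.sum_univ_two] at e00
  have h11 : N 1 1 = -N 0 0 := eq_neg_of_add_eq_zero_right ht
  ext i j
  fin_cases i <;> fin_cases j <;>
    simp [Matrix.mul_apply, Fin.sum_univ_two, Matrix.trace_fin_two, h11] <;>
    first
      | ring1
      | linear_combination (X 1 1) * e00
      | linear_combination -(X 1 1) * e00
      | linear_combination (X 1 0) * e00
      | linear_combination -(X 1 0) * e00
      | linear_combination (X 0 1) * e00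
      | linear_combination -(X 0 1) * e00
      | linear_combination (X 0 0) * e00

/-- Trace two and determinant one: unipotent. -/
theorem sub_one_sq {A : M2p} (ht : A.trace = 2) (hd : A.det = 1) : (A - 1) * (A - 1) = 0 := by
  rw [Matrix.trace_fin_two] at ht
  rw [Matrix.det_fin_two] at hd
  have h11 : A 1 1 = 2 - A 0 0 := eq_sub_of_add_eq' ht
  rw [h11] at hd
  ext i j
  fin_cases i <;> fin_cases j <;>
    simp [Matrix.mul_apply, Fin.sum_univ_two, h11] <;>
    first
      | ring1
      | linear_combination -hd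

/-- For irreducible `ρ` with cyclotomic determinant and `p ∣ K` some element fixing the `K`-th
roots of unity has trace different from two. -/
theorem exists_trace_ne_two {ρ : Γℚ →* GL (Fin 2) (ZMod p)} (hirr : Surj.Irr ρ) (hp2 : p ≠ 2)
    (hdet : ∀ σ, (ρ σ : M2p).det = ((cycChar p σ : (ZMod p)ˣ) : ZMod p)) {K : ℕ} [NeZero K]
    (hK : p ∣ K) : ∃ σ : Γℚ, cycK K σ = 1 ∧ (ρ σ : M2p).trace ≠ 2 := by
  by_contra hall
  push Not at hall
  have hdet1 : ∀ σ : Γℚ, cycK K σ = 1 → (ρ σ : M2p).det = 1 := fun σ hσ => by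
    have : NeZero p := ⟨hp.out.ne_zero⟩
    have h1 := unitsMap_cycK (K := K) hK σ
    rw [hσ, map_one, cycK_prime_eq_cycChar] at h1
    rw [hdet, ← h1, Units.val_one]
  have h20 : (2 : ZMod p) ≠ 0 := fun h => by
    have := Nat.le_of_dvd two_pos ((ZMod.natCast_eq_zero_iff 2 p).mp h)
    have := hp.out.two_le
    omega
  by_cases htriv : ∀ σ : Γℚ, cycK K σ = 1 → ρ σ = 1
  -- if `ker (cycK K)` acts trivially the image is abelian and complex conjugation fixes a line
  · set C : M2p := (ρ complexConjugation : M2p) with hC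
    have hCC : C * C = 1 := by
      rw [hC, ← Units.val_mul, ← map_mul, complexConjugation_mul_self, map_one, Units.val_one]
    have hCd : C.det = -1 := by
      rw [hC, hdet]
      exact Fermat.CFT.cycloChar_complexConjugation
    have hC1 : C - 1 ≠ 0 := fun h => h20 (by
      rw [sub_eq_zero.mp h, Matrix.det_one] at hCd
      linear_combination hCd)
    obtain ⟨v, hv, hCv⟩ : ∃ v : Fin 2 → ZMod p, v ≠ 0 ∧ (C - 1) *ᵥ v = 0 := by
      by_contra hno
      push Not at hno
      have hplus : C + 1 = 0 := by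
        ext i j
        have h0 : (C + 1) *ᵥ Pi.single j (1 : ZMod p) = 0 := by
          by_contra hne
          refine hno _ hne ?_
          rw [Matrix.mulVec_mulVec, show (C - 1) * (C + 1) = C * C - 1 by noncomm_ring, hCC,
            sub_self, Matrix.zero_mulVec]
        simpa [Matrix.mulVec_single] using congrFun h0 i
      rw [eq_neg_of_add_eq_zero_left hplus, Matrix.det_neg, Matrix.det_one] at hCd
      simp at hCd
      exact h20 (by linear_combination hCd)
    obtain ⟨σ, hσ⟩ := hirr v hv
    have hcomm : C * (ρ σ : M2p) = (ρ σ : M2p) * C := by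
      have h1 := htriv (complexConjugation * σ * (σ * complexConjugation)⁻¹)
        (by rw [map_mul, map_inv, map_mul (cycK K) σ, map_mul, mul_comm (cycK K σ),
          mul_inv_cancel])
      rw [map_mul, map_inv, mul_inv_eq_one, map_mul, map_mul] at h1
      exact congrArg Units.val h1
    have hw : (C - 1) *ᵥ ((ρ σ : M2p) *ᵥ v) = 0 := by
      rw [Matrix.mulVec_mulVec,
        show (C - 1) * (ρ σ : M2p) = (ρ σ : M2p) * (C - 1) by
          rw [sub_mul, mul_sub, hcomm, one_mul, mul_one],
        ← Matrix.mulVec_mulVec, hCv, Matrix.mulVec_zero]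
    obtain ⟨c, hc⟩ := exists_smul_of_mulVec_eq_zero hC1 hv hCv hw
    exact hσ c hc
  · push Not at htriv
    -- otherwise some `ρ σ₀ - 1 = N` is nonzero of square zero, and `N ρ(τ) N = 0` for every `τ`
    obtain ⟨σ₀, hσ₀, hne⟩ := htriv
    set N : M2p := (ρ σ₀ : M2p) - 1 with hNdef
    have hN0 : N ≠ 0 := fun h => hne (Units.ext (sub_eq_zero.mp h))
    have hNN : N * N = 0 := sub_one_sq (hall σ₀ hσ₀) (hdet1 σ₀ hσ₀)
    have htrN : N.trace = 0 := by rw [Matrix.trace_fin_two]; exact trace_eq_zero_of_sq hNN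
    have hNτN : ∀ τ : Γℚ, N * (ρ τ : M2p) * N = 0 := by
      intro τ
      set A : M2p := (ρ τ : M2p) with hA
      set A' : M2p := ((ρ τ)⁻¹ : GL (Fin 2) (ZMod p)).1 with hA'
      have hAA' : A' * A = 1 := by rw [hA, hA', ← Units.val_mul, inv_mul_cancel, Units.val_one]
      have hk : cycK K (σ₀ * (τ⁻¹ * σ₀ * τ)) = 1 := by
        simp [hσ₀]
      have ht := hall _ hk
      have he : (ρ (σ₀ * (τ⁻¹ * σ₀ * τ)) : M2p) = (N + 1) * (A' * (N + 1) * A) := by
        simp only [map_mul, map_inv, Units.val_mul, hNdef, sub_add_cancel, hA, hA']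
      rw [he, show (N + 1) * (A' * (N + 1) * A)
          = N * A' * N * A + N * (A' * A) + A' * N * A + A' * A by noncomm_ring, hAA', mul_one,
        Matrix.trace_add, Matrix.trace_add, Matrix.trace_add, Matrix.trace_one, htrN,
        Matrix.trace_mul_cycle A' N A] at ht
      have hAA : A * A' = 1 := by rw [hA, hA', ← Units.val_mul, mul_inv_cancel, Units.val_one]
      rw [hAA, one_mul, htrN] at ht
      simp only [Fintype.card_fin, Nat.cast_ofNat, add_zero, add_eq_right] at ht
      -- `tr (N A') tr (N A) = 0` and the two traces are proportional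
      rw [mul_mul_of_sq hNN A]
      have h1 : (N * A').trace * (N * A).trace = 0 := by
        have e := congrArg (fun X : M2p => (X * A).trace) (mul_mul_of_sq hNN A')
        simp only [Matrix.smul_mul, Matrix.trace_smul, smul_eq_mul] at e
        rw [← e, ht]
      have h2 : (N * A).trace = -(A.det * (N * A').trace) := by
        have hadj : A.det • A' = A.adjugate := by
          have e := congrArg (fun X : M2p => A' * X) (Matrix.mul_adjugate A)
          simp only [← mul_assoc, hAA', one_mul, Matrix.mul_smul, mul_one] at e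
          exact e.symm
        have e2 := congrArg (fun X : M2p => (N * X).trace) hadj
        simp only [Matrix.mul_smul, Matrix.trace_smul, smul_eq_mul] at e2
        rw [e2]
        have ht' := trace_eq_zero_of_sq hNN
        have h11 : N 1 1 = -N 0 0 := eq_neg_of_add_eq_zero_right ht'
        simp [Matrix.trace_fin_two, Matrix.mul_apply, Fin.sum_univ_two,
          Matrix.adjugate_fin_two, h11]
        ring
      have h3 : (N * A).trace * (N * A).trace = 0 := by
        conv_lhs => arg 1; rw [h2]
        linear_combination -A.det * h1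
      rw [mul_self_eq_zero.mp h3, zero_smul]
    -- the image of `N` is then a stable line
    obtain ⟨j, hj⟩ : ∃ j : Fin 2, N *ᵥ Pi.single j (1 : ZMod p) ≠ 0 := by
      by_contra h
      push Not at h
      exact hN0 (Matrix.ext fun i j => by simpa [Matrix.mulVec_single] using congrFun (h j) i)
    set v := N *ᵥ Pi.single j (1 : ZMod p) with hv
    obtain ⟨τ, hτ⟩ := hirr v hj
    have h1 : N *ᵥ v = 0 := by rw [hv, Matrix.mulVec_mulVec, hNN, Matrix.zero_mulVec]
    have h2 : N *ᵥ ((ρ τ : M2p) *ᵥ v) = 0 := by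
      rw [hv, Matrix.mulVec_mulVec, Matrix.mulVec_mulVec, hNτN, Matrix.zero_mulVec]
    obtain ⟨c, hc⟩ := exists_smul_of_mulVec_eq_zero hN0 hj h1 h2
    exact hτ c hc

/-- Irreducibility passes to an integral model. -/
theorem irreducible_of_model {E : WeierstrassCurve ℚ} [E.IsElliptic] {W : WeierstrassCurve ℤ}
    (hW : W.IsIntegralModelOf E)
    (hirr : Point.GaloisRepIsIrreducible (K := ℚbar) ℚ E p) :
    W.Δ ≠ 0 ∧ W.ModRepIsIrreducible p := by
  obtain ⟨C, hC⟩ := hW
  have hE : E.Δ ≠ 0 := (isUnit_Δ E).ne_zero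
  have hW0 : W.Δ ≠ 0 := fun h => by
    have h1 : (W.map (Int.castRingHom ℚ)).Δ = 0 := by rw [WeierstrassCurve.map_Δ, h, map_zero]
    rw [← hC, variableChange_Δ] at h1
    exact mul_ne_zero (pow_ne_zero _ (Units.ne_zero _)) hE h1
  obtain ⟨e, he⟩ := Fermat.SW.exists_equiv_of_change E (W.map (Int.castRingHom ℚ)) hE C hC
    (p := p) hp.out.one_le
  let el : TorW E p ≃ₗ[ZMod p] TorW (W.map (Int.castRingHom ℚ)) p :=
    LinearEquiv.ofBijective (e.toAddMonoidHom.toZModLinearMap p) e.bijective
  have := hirr.1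
  refine ⟨hW0, e.toEquiv.symm.nontrivial, fun N hN => ?_⟩
  have hst : Point.IsGaloisStable ℚ (N.comap el.toLinearMap) := by
    intro σ x hx
    change e (σ • x) ∈ N
    rw [he]
    exact hN σ _ hx
  rcases hirr.2 _ hst with h | h
  · left
    rw [eq_bot_iff]
    intro y hy
    obtain ⟨x, rfl⟩ := el.surjective y
    have : x ∈ N.comap el.toLinearMap := hy
    rw [h, Submodule.mem_bot] at this
    rw [this, map_zero]
    exact Submodule.zero_mem _
  · right
    rw [eq_top_iff]
    intro y _
    obtain ⟨x, rfl⟩ := el.surjective y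
    have : x ∈ N.comap el.toLinearMap := h ▸ Submodule.mem_top
    exact this

/-- Powers of a matrix with trace two and determinant one have trace two. -/
theorem trace_pow_eq_two {A : M2p} (ht : A.trace = 2) (hd : A.det = 1) (k : ℕ) :
    (A ^ k).trace = 2 := by
  have h := sub_one_sq ht hd
  have hk : A ^ k = 1 + k • (A - 1) := by
    induction k with
    | zero => rw [pow_zero, zero_smul, add_zero]
    | succ k ih =>
      have h' : (A - 1) * A = A - 1 := by
        have : (A - 1) * A = (A - 1) * (A - 1) + (A - 1) := by noncomm_ring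
        rw [this, h, zero_add]
      rw [pow_succ, ih, add_mul, one_mul, smul_mul_assoc, h', succ_nsmul]
      abel
  rw [hk, Matrix.trace_add, Matrix.trace_smul, Matrix.trace_sub, Matrix.trace_one, ht]
  simp

/-- **The torsion system is not Eisenstein.** -/
theorem exists_prime_one_mod {E : WeierstrassCurve ℚ} [E.IsElliptic] {W : WeierstrassCurve ℤ}
    (hW : W.IsIntegralModelOf E) (hp2 : p ≠ 2)
    (hirr : Point.GaloisRepIsIrreducible (K := ℚbar) ℚ E p) {M : ℕ} (hM : M ≠ 0) (T : Finset ℕ) :
    ∃ ℓ : ℕ, ℓ.Prime ∧ ℓ ∉ T ∧ W.IsGoodPrimeFor ℓ ∧ ℓ ≠ p ∧ (ℓ : ZMod M) = 1 ∧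
      ((W.apOfModel ℓ : ℤ) : ZMod p) ≠ (ℓ : ZMod p) + 1 := by
  obtain ⟨hW0, hirr'⟩ := irreducible_of_model hW hirr
  have : NeZero (M * p) := ⟨Nat.mul_ne_zero hM hp.out.ne_zero⟩
  set ρ := Tors.tRep (p := p) W hW0
  -- an element trivial on `M p`-th roots of unity with trace not two, approached by a Frobenius
  obtain ⟨σ, hσ1, hσt⟩ := exists_trace_ne_two (ρ := ρ) (Tors.irr_tRep hW0 hirr') hp2
    (Tors.det_tRep hW0) (K := M * p) (dvd_mul_left p M)
  obtain ⟨ℓ, hℓ, hT, A, hA, -, φ, hφ, hgen⟩ := exists_frobenius_map_zpowers_eq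
    (ρ.prod (cycK (M * p))) (isOpen_ker_prod_cycK (Tors.isOpen_ker_tRep hW0) (M * p)) σ
    (T ∪ (M * p).primeFactors ∪ W.Δ.natAbs.primeFactors)
  simp only [Finset.mem_union, Nat.mem_primeFactors, not_or, not_and] at hT
  have hnd : ¬ ℓ ∣ M * p := fun h => hT.1.2 hℓ h (NeZero.ne _)
  have hgood : ¬ (ℓ : ℤ) ∣ W.Δ := fun h => hT.2 hℓ (Int.natCast_dvd.mp h)
    (Int.natAbs_ne_zero.mpr hW0)
  have hℓp : ℓ ≠ p := fun e => hnd (e ▸ dvd_mul_left p M)
  have hcop : ℓ.Coprime (M * p) := hℓ.coprime_iff_not_dvd.mpr hnd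
  have hmem : (ρ.prod (cycK (M * p))) σ ∈ Subgroup.zpowers ((ρ.prod (cycK (M * p))) φ) :=
    hgen ▸ Subgroup.mem_zpowers _
  -- the Frobenius is trivial there too, so `ℓ ≡ 1` modulo `M p`
  have hone : cycK (M * p) φ = 1 := by
    have h1 : (ρ.prod (cycK (M * p))) φ ∈ Subgroup.zpowers ((ρ.prod (cycK (M * p))) σ) :=
      hgen ▸ Subgroup.mem_zpowers _
    obtain ⟨k, hk⟩ := h1
    have := congrArg Prod.snd hk
    simpa [hσ1, eq_comm] using this
  rw [cycK_frobenius hℓ hcop hA hφ] at hone
  have hℓ1 : (ℓ : ZMod (M * p)) = 1 := congrArg Units.val hone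
  refine ⟨ℓ, hℓ, hT.1.1, hgood, hℓp, ?_, fun he => hσt ?_⟩
  · have := congrArg (ZMod.castHom (dvd_mul_right M p) (ZMod M)) hℓ1
    rwa [map_natCast, map_one] at this
  -- a congruence would make its trace two, hence that of every power
  · have hℓp1 : (ℓ : ZMod p) = 1 := by
      have := congrArg (ZMod.castHom (dvd_mul_left p M) (ZMod p)) hℓ1
      rwa [map_natCast, map_one] at this
    rw [hℓp1, one_add_one_eq_two] at he
    have htr : (ρ φ : M2p).trace = 2 := by
      rw [Tors.trace_tRep]
      exact (FR.galoisTrace_frobenius W hℓ hℓp hgood hA hφ).trans he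
    have hd : (ρ φ : M2p).det = 1 := by
      rw [Tors.det_tRep, cycChar_frobenius hℓ hℓp hA hφ]
      exact hℓp1
    rw [← mem_powers_iff_mem_zpowers] at hmem
    obtain ⟨k, hk⟩ := hmem
    have h2 := congrArg (fun x : GL (Fin 2) (ZMod p) × (ZMod (M * p))ˣ => (x.1 : M2p)) hk
    simp only [Prod.pow_fst, MonoidHom.prod_apply, Units.val_pow_eq_pow_val] at h2
    rw [← h2]
    exact trace_pow_eq_two htr hd k

end Fermat.LR

end
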