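import Fermat.Agent.LR.Galois
import Fermat.Agent.LR.Coeff
import Fermat.Agent.LR.Eigen
import Fermat.Agent.GR.RT.ModularPoint
import Fermat.Prelude.Def_FreyPackage_LevelRaising

/-!
# Raising the level of a residually irreducible eigenform

For odd `p` and an eigenform of level `N` prime to `q'`, congruent modulo a prime over `p` to an
elliptic curve with irreducible `p`-torsion: if `a q' ≡ ± (q' + 1)` modulo the prime then some
eigenform of level `N q'` with `a q' ² = 1` is congruent to the given one.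

`exists_newAt_congruent` is S41, from `Degeneracy` (Ihara), `Eigen` and `Galois`.
-/

set_option autoImplicit false

noncomputable section

open WeierstrassCurve.Affine
open scoped MatrixGroups
open Fermat.HM Fermat.MC.Lvl MvPolynomial

namespace Fermat.LR

/-- The primes good for `W`, not dividing `B` and different from `p`. -/
abbrev LRIx (W : WeierstrassCurve ℤ) (p B : ℕ) : Type :=
  {ℓ : Nat.Primes // W.IsGoodPrimeFor ℓ ∧ ¬ (ℓ : ℕ) ∣ B ∧ (ℓ : ℕ) ≠ p}

/-- The prime of an index. -/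
abbrev lrPr (W : WeierstrassCurve ℤ) (p B : ℕ) (i : LRIx W p B) : ℕ := ((i.1 : Nat.Primes) : ℕ)

/-- The indices are primes. -/
instance fact_lrPr (W : WeierstrassCurve ℤ) (p B : ℕ) (i : LRIx W p B) :
    Fact (lrPr W p B i).Prime := ⟨i.1.2⟩

/-- The family enlarged by the raising prime. -/
abbrev lrPr' (W : WeierstrassCurve ℤ) (p B q : ℕ) (j : Option (LRIx W p B)) : ℕ :=
  j.elim q (lrPr W p B)

/-- The enlarged indices are primes. -/
instance fact_lrPr' (W : WeierstrassCurve ℤ) (p B q : ℕ) [hq : Fact q.Prime]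
    (j : Option (LRIx W p B)) : Fact (lrPr' W p B q j).Prime := by
  cases j with
  | none => exact hq
  | some i => exact ⟨i.1.2⟩

section Point

variable {W : WeierstrassCurve ℤ} {p M q : ℕ} [hp : Fact p.Prime] [NeZero M] [hq : Fact q.Prime]

/-- A congruent eigen system at which `U q` has square one gives a normalised eigenform on
`Γ₀(M)` congruent to `W` modulo `p`. -/
theorem exists_form_of_system {h : CuspForm (GammaH M (⊤ : Subgroup (ZMod M)ˣ)) 2} (h0 : h ≠ 0)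
    {c : Nat.Primes ⊕ (ZMod M)ˣ → ℂ} (hc : ∀ i, formOp M ⊤ i h = c i • h)
    (hq2 : c (Sum.inl ⟨q, hq.out⟩) ^ 2 = 1)
    (hker : ∀ t : MvPolynomial (LRIx W p M) ℤ,
      aeval (fun i => c (Sum.inl i.1)) t = 0 →
        aeval (fun i : LRIx W p M => ((W.apOfModel i.1 : ℤ) : ZMod p)) t = 0) :
    ∃ (g : CuspForm (CongruenceSubgroup.Gamma0 M) 2) (𝔪' : Ideal (integralClosure ℤ ℂ)),
      g.IsNormalizedEigenform ∧ 𝔪'.IsMaximal ∧ (p : integralClosure ℤ ℂ) ∈ 𝔪' ∧
      (∀ ℓ : ℕ, ℓ.Prime → W.IsGoodPrimeFor ℓ → ¬ ℓ ∣ M → ℓ ≠ p →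
        ∃ a : integralClosure ℤ ℂ, (a : ℂ) = ModularFormClass.qCoeff g ℓ ∧
          a - ((W.apOfModel ℓ : ℤ) : integralClosure ℤ ℂ) ∈ 𝔪') ∧
      g.IsNewAt q := by
  obtain ⟨g, hg, hgc⟩ := Fermat.GR.RT.exists_normalized M h0 hc
  obtain ⟨χ, hχ1, -⟩ := Fermat.JAC.XH.exists_point_of_eigenform M ⊤ h0 c hc
  set ψ : MvPolynomial (LRIx W p M) ℤ →+* (Fermat.JAC.XH.heckeGens M (⊤ : Subgroup (ZMod M)ˣ)).R :=
    eval₂Hom (Int.castRingHom _) (fun i => Fermat.JAC.XH.tOp M ⊤ i.1) with hψ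
  set χB := (Fermat.GR.RT.intVal χ).comp ψ with hχB
  have hcoe : ∀ t, (χB t : ℂ) = aeval (fun i => c (Sum.inl i.1)) t := by
    intro t
    rw [hχB, RingHom.comp_apply, Fermat.GR.RT.coe_intVal]
    change (χ.comp ψ) t = (aeval fun i => c (Sum.inl i.1)).toRingHom t
    congr 1
    refine MvPolynomial.ringHom_ext (fun n => by simp [hψ]) fun i => by simp [hψ, hχ1]
  set θI := aeval (R := ℤ) (fun i : LRIx W p M => ((W.apOfModel i.1 : ℤ) : ZMod p))
  have : (RingHom.ker θI).IsPrime := RingHom.ker_isPrime _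
  obtain ⟨𝔪', hmax, hpm, hmem⟩ := Fermat.GR.RT.exists_maximal_over (p := p) χB (RingHom.ker θI)
    (fun t ht => RingHom.mem_ker.mpr (hker t (by
      rw [← hcoe, RingHom.mem_ker.mp ht]; rfl)))
    (RingHom.mem_ker.mpr (by rw [map_natCast, ZMod.natCast_self]))
  refine ⟨g, 𝔪', hg, hmax, hpm, fun ℓ hℓ hgood hM hne => ?_, ?_⟩
  · let i : LRIx W p M := ⟨⟨ℓ, hℓ⟩, hgood, hM, hne⟩
    refine ⟨χB (X i), ?_, ?_⟩
    · rw [hcoe, aeval_X]
      exact (hgc ⟨ℓ, hℓ⟩).symm
    · rw [← map_intCast χB, ← map_sub]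
      refine hmem _ (RingHom.mem_ker.mpr ?_)
      rw [map_sub, aeval_X, map_intCast, sub_self]
  · change ModularFormClass.qCoeff g q ^ 2 = 1
    rw [show ModularFormClass.qCoeff g q = c (Sum.inl ⟨q, hq.out⟩) from hgc ⟨q, hq.out⟩]
    exact hq2

/-- Without a congruent eigen system having `U q` of square one, classes fixed by `U q ^ 2` are
killed outside the residual maximal ideal. -/
theorem exists_kill_of_no_system [Algebra HalfInt (ZMod p)]
    (hne : NonEisenstein (lrPr W p M) (RingHom.ker (aeval (R := HalfInt)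
      fun i : LRIx W p M => ((W.apOfModel i.1 : ℤ) : ZMod p))))
    (hno : ∀ h : CuspForm (GammaH M (⊤ : Subgroup (ZMod M)ˣ)) 2, h ≠ 0 →
      ∀ c : Nat.Primes ⊕ (ZMod M)ˣ → ℂ, (∀ i, formOp M ⊤ i h = c i • h) →
        c (Sum.inl ⟨q, hq.out⟩) ^ 2 = 1 →
        ¬ ∀ t : MvPolynomial (LRIx W p M) ℤ, aeval (fun i => c (Sum.inl i.1)) t = 0 →
          aeval (fun i : LRIx W p M => ((W.apOfModel i.1 : ℤ) : ZMod p)) t = 0)
    (H : Subgroup (ZMod M)ˣ) (hH : H = ⊤) (w : Homs HalfInt (GammaH M H))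
    (hw : heckeT HalfInt M H q (heckeT HalfInt M H q w) = w) :
    ∃ s, s ∉ RingHom.ker (aeval (R := HalfInt)
        fun i : LRIx W p M => ((W.apOfModel i.1 : ℤ) : ZMod p)) ∧
      heckeAct HalfInt HalfInt M H (lrPr W p M) s w = 0 := by
  subst hH
  have := RingHom.ker_isPrime (aeval (R := HalfInt)
    fun i : LRIx W p M => ((W.apOfModel i.1 : ℤ) : ZMod p))
  refine exists_kill_fixed (u := halfToC) hne halfToC_injective conj_comp_halfToC
    (fun h h0 d hd hd2 => ?_) w hw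
  by_contra hall
  push Not at hall
  refine hno h h0 d hd hd2 fun t ht => ?_
  by_contra htθ
  refine hall (MvPolynomial.map (Int.castRingHom HalfInt) t) (fun hm => htθ ?_) ?_
  · rw [RingHom.mem_ker, aeval_def, eval₂_map] at hm
    rw [aeval_def, ← hm]
    congr 1
    exact RingHom.ext_int _ _
  · rw [eval₂_map, ← ht, aeval_def]
    congr 1
    exact RingHom.ext_int _ _

end Point

/-- `map_sub` for maps out of a group of homomorphisms, stated once as the search is slow there. -/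
theorem map_homs_sub {R : Type} [CommRing R] {Γ : Subgroup SL(2, ℤ)} {M : Type} [AddCommGroup M]
    [Module R M] (F : Homs R Γ →ₗ[R] M) (x y : Homs R Γ) : F (x - y) = F x - F y :=
  F.map_sub x y

/-- The system of `E` is not Eisenstein when `E[p]` is irreducible. -/
theorem nonEisenstein_model {E : WeierstrassCurve ℚ} [E.IsElliptic] {W : WeierstrassCurve ℤ}
    (hW : W.IsIntegralModelOf E) {p B : ℕ} [Fact p.Prime] [NeZero B] (hp2 : p ≠ 2)
    (hirr : Point.GaloisRepIsIrreducible (K := AlgebraicClosure ℚ) ℚ E p)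
    [Algebra HalfInt (ZMod p)] :
    NonEisenstein (lrPr W p B) (RingHom.ker (aeval (R := HalfInt)
      fun i : LRIx W p B => ((W.apOfModel i.1 : ℤ) : ZMod p))) := by
  intro M hM
  obtain ⟨ℓ, hℓ, hT, hgood, hℓp, hℓ1, hℓa⟩ :=
    exists_prime_one_mod hW hp2 hirr hM B.primeFactors
  refine ⟨⟨⟨ℓ, hℓ⟩, hgood, fun h => hT (Nat.mem_primeFactors.mpr ⟨hℓ, h, NeZero.ne _⟩), hℓp⟩,
    hℓ1, fun h => hℓa ?_⟩
  rw [RingHom.mem_ker, eisElt, map_sub, aeval_X, aeval_C, map_natCast, sub_eq_zero] at h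
  rw [← Nat.cast_one, ← Nat.cast_add]
  exact h

/-- If `a ^ 2 - b ^ 2` lies in a prime ideal, so does `a - c b` for a sign `c`. -/
theorem exists_sign {R : Type} [CommRing R] {I : Ideal R} (hI : I.IsPrime) {a b : R}
    (h : a ^ 2 - b ^ 2 ∈ I) : ∃ c : ℤ, c * c = 1 ∧ a - (c : R) * b ∈ I := by
  have : (a - b) * (a + b) ∈ I := by
    convert h using 1
    ring
  rcases hI.mem_or_mem this with h | h
  · exact ⟨1, rfl, by rwa [Int.cast_one, one_mul]⟩
  · exact ⟨-1, rfl, by rwa [Int.cast_neg, Int.cast_one, neg_one_mul, sub_neg_eq_add]⟩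

/-- A polynomial nonzero on a residual system does not become `p` times an integral number on a
congruent system. -/
theorem mul_ne_eval_of_aeval_ne {p : ℕ} [hp : Fact p.Prime] [Algebra HalfInt (ZMod p)] {ι : Type}
    {𝔪 : Ideal (integralClosure ℤ ℂ)} (hmax : 𝔪.IsMaximal) (hpm : (p : integralClosure ℤ ℂ) ∈ 𝔪)
    {b : ι → integralClosure ℤ ℂ} {a : ι → ℤ}
    (hbm : ∀ j, b j - (a j : integralClosure ℤ ℂ) ∈ 𝔪) (s : MvPolynomial ι HalfInt)
    (hs : aeval (fun j => (a j : ZMod p)) s ≠ 0) (μ : ℂ) (P : Polynomial HalfInt) (hP : P.Monic)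
    (hP0 : Polynomial.eval₂ halfToC μ P = 0) :
    halfToC (p : HalfInt) * μ ≠ eval₂ halfToC (fun j => (b j : ℂ)) s := by
  intro he
  let : Algebra HalfInt ℂ := halfToC.toAlgebra
  have : @IsScalarTower ℤ HalfInt ℂ Algebra.toSMul Algebra.toSMul Algebra.toSMul :=
    IsScalarTower.of_algebraMap_eq' (RingHom.ext_int _ _)
  have hμ : IsIntegral HalfInt μ := ⟨P, hP, hP0⟩
  -- clear powers of two: `2 ^ n μ` is an algebraic integer, `2 ^ l s` has integer coefficients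
  obtain ⟨⟨_, n, rfl⟩, hn⟩ :=
    IsIntegral.exists_multiple_integral_of_isLocalization (Submonoid.powers (2 : ℤ)) μ hμ
  obtain ⟨l, s₀, hs₀⟩ := exists_int_poly s
  let μ₀ : integralClosure ℤ ℂ := ⟨_, hn⟩
  have hμ₀ : (μ₀ : ℂ) = (2 : ℂ) ^ n * μ := by
    change ((2 : ℤ) ^ n) • μ = _
    rw [zsmul_eq_mul, Int.cast_pow, Int.cast_ofNat]
  set θ' : ι → ZMod p := fun j => (a j : ZMod p) with hθ'
  set χ₀ := eval₂Hom (Int.castRingHom (integralClosure ℤ ℂ)) b with hχ₀
  have hcoe : ((χ₀ s₀ : integralClosure ℤ ℂ) : ℂ) = (2 : ℂ) ^ l * (halfToC (p : HalfInt) * μ) := by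
    have h1 : ((χ₀ s₀ : integralClosure ℤ ℂ) : ℂ) =
        eval₂ halfToC (fun j => (b j : ℂ)) (MvPolynomial.map (Int.castRingHom HalfInt) s₀) := by
      rw [eval₂_map]
      change ((integralClosure ℤ ℂ).val.toRingHom.comp χ₀) s₀ = eval₂Hom _ _ s₀
      congr 1
      exact MvPolynomial.ringHom_ext (fun z => by simp [hχ₀]) fun j => by simp [hχ₀]
    rw [h1, ← hs₀, eval₂_mul, eval₂_pow, ← he]
    congr 2
    exact map_ofNat (eval₂Hom halfToC fun j => (b j : ℂ)) 2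
  have hprod : χ₀ s₀ * 2 ^ n = (p : integralClosure ℤ ℂ) * (2 ^ l * μ₀) := by
    refine Subtype.ext ?_
    push_cast
    rw [hcoe, hμ₀, map_natCast,
      show ((2 : integralClosure ℤ ℂ) : ℂ) = 2 from map_ofNat (integralClosure ℤ ℂ).val 2]
    ring
  -- modulo the maximal ideal the value at `b` is the value at `a` in `ℤ/p`
  let := Ideal.Quotient.field 𝔪
  have : CharP (integralClosure ℤ ℂ ⧸ 𝔪) p := (CharP.charP_iff_prime_eq_zero hp.out).mpr (by
    rw [← map_natCast (Ideal.Quotient.mk 𝔪), Ideal.Quotient.eq_zero_iff_mem]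
    exact hpm)
  let f : ZMod p →+* integralClosure ℤ ℂ ⧸ 𝔪 := ZMod.castHom dvd_rfl _
  have hmk : (Ideal.Quotient.mk 𝔪).comp χ₀ = f.comp (aeval (R := ℤ) θ').toRingHom :=
    MvPolynomial.ringHom_ext (fun z => by simp [hχ₀]) fun j => by
      simp only [RingHom.comp_apply, hχ₀, eval₂Hom_X', AlgHom.toRingHom_eq_coe, RingHom.coe_coe,
        aeval_X, hθ', map_intCast]
      rw [← map_intCast (Ideal.Quotient.mk 𝔪), Ideal.Quotient.eq]
      exact hbm j
  have h0 : f (aeval θ' s₀ * 2 ^ n) = 0 := by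
    rw [map_mul, map_pow, map_ofNat, show f (aeval θ' s₀) = Ideal.Quotient.mk 𝔪 (χ₀ s₀) from
      (RingHom.congr_fun hmk s₀).symm, ← map_ofNat (Ideal.Quotient.mk 𝔪) 2, ← map_pow,
      ← map_mul, hprod, Ideal.Quotient.eq_zero_iff_mem]
    exact Ideal.mul_mem_right _ _ hpm
  rw [map_eq_zero, mul_eq_zero] at h0
  have h2 : (2 : ZMod p) ≠ 0 := by
    rw [← map_ofNat (algebraMap HalfInt (ZMod p)) 2]
    exact (isUnit_two_halfInt.map _).ne_zero
  have h4 : aeval θ' ((2 : MvPolynomial ι HalfInt) ^ l * s) = 0 := by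
    rw [hs₀, aeval_def, eval₂_map]
    refine Eq.trans ?_ (h0.resolve_right (pow_ne_zero _ h2))
    rw [aeval_def]
    congr 1
    exact RingHom.ext_int _ _
  rw [map_mul, map_pow, map_ofNat] at h4
  exact hs ((mul_eq_zero.mp h4).resolve_left (pow_ne_zero _ h2))

section Raise

variable {O k : Type} [CommRing O] [Field k] [Algebra O k] {ϖ : O} {σ : Type} {pr : σ → ℕ}
  [∀ i, Fact (pr i).Prime] {N q : ℕ} [NeZero N] [Fact q.Prime] [NeZero (N * q)] {θ : σ → k}

omit [Fact q.Prime] [NeZero (N * q)] in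
/-- An eigen homomorphism modulo `ϖ` is one for the whole Hecke algebra. -/
theorem toK_heckeAct_of_eigen {φ : Homs O (GammaH N ⊤)}
    (hφe : ∀ i, toK O k (heckeT O N ⊤ (pr i) φ) = θ i • toK O k φ) (s : MvPolynomial σ O) :
    toK O k (heckeAct O O N ⊤ pr s φ) = aeval θ s • toK O k φ := by
  induction s using MvPolynomial.induction_on with
  | C a =>
    rw [aeval_C, ← MvPolynomial.algebraMap_eq, AlgHom.commutes, Module.algebraMap_end_apply,
      map_smul, algebraMap_smul]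
  | add P Q hP hQ => simp only [map_add, LinearMap.add_apply, hP, hQ, add_smul]
  | mul_X P i hP =>
    rw [mul_comm P, map_mul, Module.End.mul_apply, heckeAct_X, map_mul, aeval_X]
    rw [mapCoeffL_apply, mapCoeff_heckeT, ← mapCoeffL_apply, hP, map_smul,
      show heckeT k N ⊤ (pr i) (toK O k φ) = θ i • toK O k φ by
        rw [← hφe i, mapCoeffL_apply, mapCoeffL_apply, mapCoeff_heckeT],
      smul_smul, mul_comm]

omit [Algebra O k] in
/-- The traces of the stabilisation of an eigen homomorphism modulo `ϖ` with eigenvalue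
`± (q + 1)` at `q` are divisible by `ϖ`. -/
theorem psi_stabilisation [IsDomain O] [CharZero O] (hqN : ¬ q ∣ N) {co : O} (hcc : co * co = 1)
    {φ ψ : Homs O (GammaH N ⊤)}
    (hψ : heckeT O N ⊤ q φ - (co * ((q : O) + 1)) • φ = ϖ • ψ) :
    psi ⊤ hqN ((isLevelMap_up (H := ⊤) (q := q)).pull φ + (isLevelMap_infty hqN).pull (-co • φ))
        = ϖ • ψ ∧
      psi ⊤ hqN (wq ⊤ hqN
        ((isLevelMap_up (H := ⊤) (q := q)).pull φ + (isLevelMap_infty hqN).pull (-co • φ)))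
        = ϖ • (-co • ψ) := by
  constructor
  · rw [map_add, psi_res, psi_infty_top, ← hψ]
    refine AddMonoidHom.ext fun γ => ?_
    simp only [AddMonoidHom.add_apply, AddMonoidHom.sub_apply,
      AddMonoidHom.smul_apply, smul_eq_mul, nsmul_eq_mul, Nat.cast_add, Nat.cast_one]
    ring
  · rw [map_add, map_add, psi_wq_res_top, psi_wq_infty_top, map_smul, smul_comm, ← hψ]
    refine AddMonoidHom.ext fun γ => ?_
    simp only [AddMonoidHom.add_apply, AddMonoidHom.sub_apply,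
      AddMonoidHom.smul_apply, smul_eq_mul, nsmul_eq_mul, Nat.cast_add, Nat.cast_one]
    linear_combination -(((q : O) + 1) * φ γ) * hcc

/-- If classes fixed by `U q ^ 2` at level `N q` are killed outside the residual ideal, so is an
eigen homomorphism modulo `ϖ` with eigenvalue `± (q + 1)` at `q`. -/
theorem exists_heckeAct_toK_eq_zero [IsDomain O] [CharZero O]
    (hsurj : Function.Surjective (algebraMap O k)) (hker : ∀ x, algebraMap O k x = 0 ↔ ϖ ∣ x)
    (hϖ : ϖ ≠ 0) (h2 : IsUnit (2 : O)) (h3 : (3 : O) ≠ 0)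
    (hne : NonEisenstein pr (RingHom.ker (aeval (R := O) θ))) (hqN : ¬ q ∣ N)
    (hpq : ∀ i, pr i ≠ q) {co : O} (hcc : co * co = 1) {φ ψ : Homs O (GammaH N ⊤)}
    (hψ : heckeT O N ⊤ q φ - (co * ((q : O) + 1)) • φ = ϖ • ψ)
    (hkill : ∀ H : Subgroup (ZMod (N * q))ˣ, H = ⊤ → ∀ w : Homs O (GammaH (N * q) H),
      heckeT O (N * q) H q (heckeT O (N * q) H q w) = w →
        ∃ s, s ∉ RingHom.ker (aeval (R := O) θ) ∧ heckeAct O O (N * q) H pr s w = 0) :
    ∃ s, aeval θ s ≠ 0 ∧ toK O k (heckeAct O O N ⊤ pr s φ) = 0 := by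
  have : (RingHom.ker (aeval (R := O) θ)).IsPrime := RingHom.ker_isPrime _
  -- correct the stabilisation of `φ` by `ϖ z` to lie in the kernel of both traces
  obtain ⟨s₁, hs₁, hsur⟩ := exists_traces_eq (θ := θ) hsurj hker hϖ h2 h3 hne hqN hpq
  obtain ⟨z, hz₁, hz₂⟩ := hsur (-co • ψ) ψ
  obtain ⟨hpsi, hpsiw⟩ := psi_stabilisation hqN hcc hψ
  set α : Homs O (GammaH (N * q) (upH ⊤ q)) :=
    (isLevelMap_up (H := ⊤) (q := q)).pull φ + (isLevelMap_infty hqN).pull (-co • φ) with hα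
  set v := heckeAct O O (N * q) (upH (⊤ : Subgroup (ZMod N)ˣ) q) pr s₁ α - ϖ • z with hv
  have hv1 : psi ⊤ hqN v = 0 := by
    rw [hv, map_homs_sub, map_smul, psi_heckeAct hqN levelOver_one hpq, hpsi, map_smul, hz₂]
    exact AddMonoidHom.ext fun γ => sub_self _
  have hv2 : psi ⊤ hqN (wq ⊤ hqN v) = 0 := by
    rw [hv, map_homs_sub, map_homs_sub, map_smul, map_smul, wq_heckeAct hqN hpq,
      psi_heckeAct hqN levelOver_one hpq, hpsiw, map_smul, hz₁]
    exact AddMonoidHom.ext fun γ => sub_self _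
  -- there `U q ^ 2` is one, so it is killed, and `φ` dies modulo `ϖ`
  obtain ⟨s₂, hs₂, hs₂v⟩ := hkill (upH (⊤ : Subgroup (ZMod N)ˣ) q) upH_top v
    (heckeT_heckeT_of_ker hqN hv1 hv2)
  have hrel : (isLevelMap_up (H := ⊤) (q := q)).pull (heckeAct O O N ⊤ pr (s₂ * s₁) φ)
      + (isLevelMap_infty hqN).pull (heckeAct O O N ⊤ pr (s₂ * s₁) (-co • φ))
        = ϖ • heckeAct O O (N * q) (upH (⊤ : Subgroup (ZMod N)ˣ) q) pr s₂ z := by
    rw [pull_infty_top, pull_heckeAct _ (goodFor_up (M := N) hpq),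
      pull_heckeAct _ (goodFor_scaleUp (M := N) hpq), ← map_add, ← pull_infty_top hqN, ← hα,
      map_mul, Module.End.mul_apply, ← map_smul, ← sub_eq_zero, ← map_homs_sub]
    exact hs₂v
  obtain ⟨s₃, hs₃, χ, hχ⟩ :=
    exists_smul_eq_pair (m := RingHom.ker (aeval (R := O) θ)) hker hϖ hne hqN hpq hrel
  refine ⟨s₃ * (s₂ * s₁), ?_, ?_⟩
  · rw [map_mul, map_mul]
    exact mul_ne_zero (fun h => hs₃ (RingHom.mem_ker.mpr h))
      (mul_ne_zero (fun h => hs₂ (RingHom.mem_ker.mpr h)) hs₁)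
  · rw [map_mul, Module.End.mul_apply, hχ]
    exact (toK_eq_zero_iff hker hϖ (φ := ϖ • χ)).mpr ⟨χ, rfl⟩

end Raise

/-- **Level raising.** For irreducible `E[p]`, `p` odd, and an eigenform congruent to `E` with
`a_q' ^ 2 ≡ (q' + 1) ^ 2` modulo the prime, some congruent eigenform of level `N q'` is new at
`q'`. -/
theorem exists_newAt_congruent (E : WeierstrassCurve ℚ) [E.IsElliptic] {W : WeierstrassCurve ℤ}
    (hW : W.IsIntegralModelOf E) {p N q' : ℕ} (hp : p.Prime) (hp2 : p ≠ 2)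
    (hq' : q'.Prime) (hq'N : ¬ q' ∣ N)
    (hirr : Point.GaloisRepIsIrreducible (K := AlgebraicClosure ℚ) ℚ E p)
    (f : CuspForm (CongruenceSubgroup.Gamma0 N) 2) (𝔪 : Ideal (integralClosure ℤ ℂ))
    (hf : f.IsNormalizedEigenform) (hmax : 𝔪.IsMaximal) (hpm : (p : integralClosure ℤ ℂ) ∈ 𝔪)
    (hcong : ∀ ℓ : ℕ, ℓ.Prime → W.IsGoodPrimeFor ℓ → ¬ ℓ ∣ N → ℓ ≠ p →
      ∃ a : integralClosure ℤ ℂ, (a : ℂ) = ModularFormClass.qCoeff f ℓ ∧
        a - ((W.apOfModel ℓ : ℤ) : integralClosure ℤ ℂ) ∈ 𝔪)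
    (hLR : ∃ a : integralClosure ℤ ℂ, (a : ℂ) = ModularFormClass.qCoeff f q' ∧
      a ^ 2 - ((q' : integralClosure ℤ ℂ) + 1) ^ 2 ∈ 𝔪) :
    ∃ (g : CuspForm (CongruenceSubgroup.Gamma0 (N * q')) 2) (𝔪' : Ideal (integralClosure ℤ ℂ)),
      g.IsNormalizedEigenform ∧ 𝔪'.IsMaximal ∧ (p : integralClosure ℤ ℂ) ∈ 𝔪' ∧
      (∀ ℓ : ℕ, ℓ.Prime → W.IsGoodPrimeFor ℓ → ¬ ℓ ∣ N * q' → ℓ ≠ p →
        ∃ a : integralClosure ℤ ℂ, (a : ℂ) = ModularFormClass.qCoeff g ℓ ∧
          a - ((W.apOfModel ℓ : ℤ) : integralClosure ℤ ℂ) ∈ 𝔪') ∧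
      g.IsNewAt q' := by
  classical
  by_contra hno
  have := Fact.mk hp
  have := Fact.mk hq'
  have hN : N ≠ 0 := fun e => hq'N (e ▸ dvd_zero q')
  have : NeZero N := ⟨hN⟩
  have : NeZero (N * q') := ⟨Nat.mul_ne_zero hN hq'.ne_zero⟩
  let : Algebra HalfInt (ZMod p) := (halfToZMod p hp hp2).toAlgebra
  have hsurj : Function.Surjective (algebraMap HalfInt (ZMod p)) := halfToZMod_surjective hp hp2
  have hker : ∀ x, algebraMap HalfInt (ZMod p) x = 0 ↔ (p : HalfInt) ∣ x :=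
    halfToZMod_eq_zero_iff hp hp2
  have hϖ : (p : HalfInt) ≠ 0 := Nat.cast_ne_zero.mpr hp.ne_zero
  have h3 : (3 : HalfInt) ≠ 0 := by
    simp
  set pr := lrPr W p (N * q') with hpr
  have hne_q : ∀ i, pr i ≠ q' := fun i e => i.2.2.1 (by
    change pr i ∣ N * q'
    rw [e]
    exact dvd_mul_left q' N)
  set θ : LRIx W p (N * q') → ZMod p := fun i => ((W.apOfModel i.1 : ℤ) : ZMod p) with hθ
  have hne := nonEisenstein_model (B := N * q') hW hp2 hirr
  -- the sign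
  obtain ⟨aq, haq, haq2⟩ := hLR
  obtain ⟨c, hc, hcm⟩ := exists_sign (Ideal.IsMaximal.isPrime hmax) haq2
  -- the eigen values of `f` on the enlarged family
  set pr' := lrPr' W p (N * q') q' with hpr'
  set a : Option (LRIx W p (N * q')) → ℤ :=
    fun j => j.elim (c * ((q' : ℤ) + 1)) fun i => W.apOfModel i.1 with ha
  have hB : ∀ j, ∃ b : integralClosure ℤ ℂ, (b : ℂ) = ModularFormClass.qCoeff f (pr' j) ∧
      b - (a j : integralClosure ℤ ℂ) ∈ 𝔪 := by
    rintro (_ | i)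
    · refine ⟨aq, haq, ?_⟩
      simpa [ha] using hcm
    · exact hcong _ i.1.2 i.2.1 (fun h => i.2.2.1 (h.trans (dvd_mul_right N q'))) i.2.2.2
  choose b hb hbm using hB
  have hev : ∀ j, formHecke N (⊤ : Subgroup (ZMod N)ˣ) (pr' j) (Fermat.GR.RT.toTop N f)
      = (b j : ℂ) • Fermat.GR.RT.toTop N f := fun j => by
    rw [hb j]
    exact Fermat.GR.RT.formOp_toTop N hf (Sum.inl ⟨pr' j, (fact_lrPr' W p (N * q') q' j).out⟩)
  obtain ⟨φ, hφ0, hφe⟩ := exists_mod_eigen (pr := pr') (θ := fun j => (a j : ZMod p)) (u := halfToC)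
    hsurj hker hϖ isUnit_two_halfInt h3 halfToC_injective
    (fun e => hf.ne_zero ((Fermat.GR.RT.toTop N).map_eq_zero_iff.mp e)) hev
    (mul_ne_eval_of_aeval_ne hmax hpm hbm)
  -- an eigen homomorphism modulo `p`, killed outside the residual ideal
  set co : HalfInt := (c : HalfInt) with hco
  obtain ⟨ψ, hψ⟩ : ∃ ψ, heckeT HalfInt N ⊤ q' φ - (co * ((q' : HalfInt) + 1)) • φ
      = (p : HalfInt) • ψ := (toK_eq_zero_iff hker hϖ).mp (by
    have h := hφe none
    rw [map_homs_sub, map_smul, sub_eq_zero]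
    refine h.trans ?_
    rw [← algebraMap_smul (ZMod p) (co * ((q' : HalfInt) + 1)) (toK HalfInt (ZMod p) φ)]
    congr 1
    simp [ha, hco])
  have hcc : co * co = 1 := by rw [hco, ← Int.cast_mul, hc, Int.cast_one]
  obtain ⟨s, hs, hs0⟩ := exists_heckeAct_toK_eq_zero (θ := θ) hsurj hker hϖ isUnit_two_halfInt h3
    hne hq'N hne_q hcc hψ
    (exists_kill_of_no_system hne fun h h0 d hd hd2 hk => hno (exists_form_of_system h0 hd hd2 hk))
  rw [toK_heckeAct_of_eigen (pr := pr) (θ := θ) (fun i => hφe (some i)) s, smul_eq_zero] at hs0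
  exact hs0.elim hs hφ0

end Fermat.LR

end
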