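import Fermat.Agent.HM.Duality

/-!
# Crossing homomorphisms span, also at levels with elliptic points of order three

Over a domain with two invertible and three nonzero every homomorphism is a combination of the
crossing homomorphisms of the edges: at a coset fixed by `rot` the cocycle vanishes.
-/

namespace Fermat.LR

open scoped MatrixGroups
open Fermat.HM

variable {R : Type} [CommRing R] [IsDomain R] {Γ : Subgroup SL(2, ℤ)}

/-- A cocycle along `rot` is a coboundary when three is not zero. -/
theorem exists_coboundary (hneg : -1 ∈ Γ) [Finite (Cosets Γ)] (h3 : (3 : R) ≠ 0)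
    {v : Cosets Γ → R} (hv : ∀ x, v x + v (rot • x) + v (rot • rot • x) = 0) :
    ∃ b : Cosets Γ → R, ∀ x, b (rot • x) - b x = v x := by
  classical
  let e := fun x => (Finite.equivFin (Cosets Γ) x : ℕ)
  refine ⟨fun x => if e x ≤ e (rot • x) ∧ e x ≤ e (rot • rot • x) then 0
    else if e (rot • rot • x) ≤ e x ∧ e (rot • rot • x) ≤ e (rot • x) then v (rot • rot • x)
    else v (rot • x) + v (rot • rot • x), fun x => ?_⟩
  have hinj : ∀ {a b}, e a = e b → a = b := fun hab =>
    (Finite.equivFin (Cosets Γ)).injective (Fin.ext hab)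
  have hc := smul_rot_cube Γ hneg x
  by_cases hfix : rot • x = x
  · have h0 : v x = 0 := by
      have h := hv x
      simp only [hfix] at h
      exact (mul_eq_zero.mp (by linear_combination h : (3 : R) * v x = 0)).resolve_left h3
    simp [hfix, h0]
  · have d1 : e (rot • x) ≠ e x := fun hh => hfix (hinj hh)
    have d2 : e (rot • rot • x) ≠ e (rot • x) := fun hh =>
      hfix (by
        have := congrArg (fun y => rot⁻¹ • y) (hinj hh)
        simpa [inv_smul_smul] using this)
    have d3 : e x ≠ e (rot • rot • x) := fun hh => hfix (by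
      conv_rhs => rw [← hc]
      rw [← hinj hh])
    simp only [hc]
    split_ifs <;>
      first | (exfalso; omega) | linear_combination hv x | linear_combination -(hv x) | ring

/-- **The crossing homomorphisms of the edges span.** -/
theorem mem_span_edgeR (hneg : -1 ∈ Γ) [Finite (Cosets Γ)] (h2 : IsUnit (2 : R)) (h3 : (3 : R) ≠ 0)
    (φ : Homs R Γ) : φ ∈ Submodule.span R (Set.range (edgeR R Γ)) := by
  classical
  have := Fintype.ofFinite (Cosets Γ)
  have h20 : (2 : R) ≠ 0 := h2.ne_zero
  have hneg0 : ∀ x, cocyc Γ φ (-1) x = 0 := fun x => by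
    rw [cocyc, show trans Γ (-1) x = ⟨-1, hneg⟩ from Subtype.ext (coe_trans_neg_one Γ hneg x)]
    have h : φ (Additive.ofMul ((⟨-1, hneg⟩ : Γ) * ⟨-1, hneg⟩)) = 0 := by
      rw [show ((⟨-1, hneg⟩ : Γ) * ⟨-1, hneg⟩) = 1 from Subtype.ext (by simp), ofMul_one, map_zero]
    rw [ofMul_mul, map_add, ← two_mul] at h
    exact (mul_eq_zero.mp h).resolve_left h20
  obtain ⟨b, hb⟩ := exists_coboundary hneg h3 (v := cocyc Γ φ rot) fun x => by
    have h := hneg0 x
    rw [← rot_cube, cocyc_mul, cocyc_mul, mul_smul] at h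
    linear_combination h
  set u : R := ((((h2.mul h2).mul h2).unit⁻¹ : Rˣ) : R) with hu
  have hu8 : u * (2 * 2 * 2) = 1 := ((h2.mul h2).mul h2).val_inv_mul
  set g : Cosets Γ → R := fun x =>
    cocyc Γ φ ModularGroup.S x - (b (ModularGroup.S • x) - b x) with hgdef
  have hanti : ∀ x, g x + g (ModularGroup.S • x) = 0 := fun x => by
    have h := hneg0 x
    rw [← SL2.S_mul_S, cocyc_mul] at h
    simp only [hgdef, SL2.S_smul_S_smul hneg]
    linear_combination h
  set a : Cosets Γ → R := fun x => -u * g x with ha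
  suffices h : φ = ∑ y, a y • edgeR R Γ y by
    rw [h]
    exact Submodule.sum_mem _ fun y _ => Submodule.smul_mem _ _ (Submodule.subset_span ⟨y, rfl⟩)
  rw [← sub_eq_zero]
  have hc : ∀ k x, cocyc Γ (φ - ∑ y, a y • edgeR R Γ y) k x
      = cocyc Γ φ k x - ∑ y, a y * cocyc Γ (edgeR R Γ y) k x := fun k x => by
    simp [cocyc]
  refine eq_zero_of_coboundary Γ (fun x => b x - ∑ y, a y * edgeBase R Γ y x)
    (fun x => ?_) (fun x => ?_)
  · rw [hc]
    simp only [cocyc_edgeR_S hneg, mul_add, mul_sub, mul_ite, mul_one, mul_zero,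
      Finset.sum_add_distrib, Finset.sum_sub_distrib, Finset.sum_ite_eq', Finset.mem_univ, if_true]
    have h1 := hanti x
    simp only [ha, hgdef] at *
    linear_combination (u * 4) * h1
      - (cocyc Γ φ ModularGroup.S x - (b (ModularGroup.S • x) - b x)) * hu8
  · rw [hc]
    simp only [cocyc_edgeR_rot, mul_sub, Finset.sum_sub_distrib]
    linear_combination -(hb x)

/-- The module of homomorphisms is finite. -/
theorem finite_homs (hneg : -1 ∈ Γ) [Finite (Cosets Γ)] (h2 : IsUnit (2 : R)) (h3 : (3 : R) ≠ 0) :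
    Module.Finite R (Homs R Γ) :=
  ⟨Submodule.fg_def.mpr ⟨Set.range (edgeR R Γ), Set.finite_range _,
    top_le_iff.mp fun φ _ => mem_span_edgeR hneg h2 h3 φ⟩⟩

/-- The crossing homomorphisms span. -/
theorem mem_span_crossR (hneg : -1 ∈ Γ) [Finite (Cosets Γ)] (h2 : IsUnit (2 : R))
    (h3 : (3 : R) ≠ 0) (φ : Homs R Γ) :
    φ ∈ Submodule.span R (Set.range fun ab : Cusp × Cusp => crossR R Γ ab.1 ab.2) := by
  have h : Set.range (edgeR R Γ) ⊆ Set.range fun ab : Cusp × Cusp => crossR R Γ ab.1 ab.2 :=
    Set.range_subset_iff.mpr fun _ => ⟨(_, _), rfl⟩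
  exact Submodule.span_mono h (mem_span_edgeR hneg h2 h3 φ)

end Fermat.LR
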